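import Fermat.Agent.MahlerTwist.Series
import Mathlib.RingTheory.AlgebraicIndependent.Basic

/-!
# The series `∑ a ^ k z ^ (j d ^ k)`

They satisfy `f (z ^ d) = a⁻¹ f (z) - a⁻¹ z ^ j`; as no combination of the `z ^ j`, `d ∤ j`, is
`q (z ^ d) - t q (z)`, their values are independent over all pairs `(a, j)`.
-/

set_option autoImplicit false
set_option linter.style.haveILetI false

noncomputable section

namespace FA.MahlerTwist

open Finset
open FA.Mahler (Rep)

variable {d : ℕ}

/-- `∑ a ^ k z ^ (j d ^ k)`. -/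
def geomLacunary (d : ℕ) (a : ℂ) (j : ℕ) (z : ℂ) : ℂ := ∑' k : ℕ, a ^ k * z ^ (j * d ^ k)

theorem summable_geomLacunary (hd : 2 ≤ d) (a : ℂ) {j : ℕ} (hj : 0 < j) {z : ℂ} (hz : ‖z‖ < 1) :
    Summable fun k : ℕ => ‖a ^ k * z ^ (j * d ^ k)‖ := by
  refine (summable_pow_mul_pow_pow hd (norm_nonneg a) (norm_nonneg z) hz).of_nonneg_of_le
    (fun _ => norm_nonneg _) fun k => ?_
  rw [norm_mul, norm_pow, norm_pow]
  exact mul_le_mul_of_nonneg_left (pow_le_pow_of_le_one (norm_nonneg z) hz.le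
    (Nat.le_mul_of_pos_left _ hj)) (by positivity)

theorem geomLacunary_eq (hd : 2 ≤ d) {a : ℂ} (ha : a ≠ 0) {j : ℕ} (hj : 0 < j) {z : ℂ}
    (hz : ‖z‖ < 1) : geomLacunary d a j (z ^ d) = a⁻¹ * geomLacunary d a j z - a⁻¹ * z ^ j := by
  rw [← mul_sub, geomLacunary, geomLacunary,
    (summable_geomLacunary hd a hj hz).of_norm.tsum_eq_zero_add, pow_zero, pow_zero, one_mul,
    mul_one, add_sub_cancel_left, ← tsum_mul_left]
  refine tsum_congr fun k => ?_
  rw [← pow_mul, pow_succ' a, show d * (j * d ^ k) = j * d ^ (k + 1) by ring]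
  field_simp

open Polynomial in
/-- No combination of the `z ^ j` is `q (z ^ d) - t q (z)`. -/
theorem geomLacunary_criterion (hd : 2 ≤ d) {n : ℕ} {j : Fin n → ℕ} (hj : ∀ i, ¬ d ∣ j i)
    {g : Fin n → ℂ} (hg : ∀ i l, g i ≠ 0 → g l ≠ 0 → j i = j l → i = l) (t : ℂ) (q : RatFunc ℂ)
    (h : frob (by omega : 0 < d) q - RatFunc.C t * q =
      algebraMap ℂ[X] (RatFunc ℂ) (∑ i, C (g i) * X ^ j i)) : g = 0 := by
  have hd0 : 0 < d := by omega
  obtain ⟨h1, h2⟩ := frob_eq_div hd0 (one_ne_zero (α := ℂ[X])) (P := ∑ i, C (g i) * X ^ j i)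
    (by rw [h, map_one, div_one])
  rw [mul_one] at h1 h2
  obtain ⟨c, hc⟩ := natDegree_eq_zero.1
    (FA.MahlerIndependence.eq_const_of_expand_dvd hd (RatFunc.denom_ne_zero q) h2)
  have hc0 : c ≠ 0 := fun e => RatFunc.denom_ne_zero q (by rw [← hc, e, map_zero])
  set p := C c⁻¹ * q.num with hp
  have hpe : expand ℂ d p - C t * p = ∑ i, C (g i) * X ^ j i := by
    refine mul_left_cancel₀ (mul_ne_zero (C_ne_zero.2 hc0) (C_ne_zero.2 hc0)) ?_
    rw [← hc, expand_C] at h1
    rw [hp, map_mul, expand_C]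
    have e : (C c : ℂ[X]) * C c⁻¹ = 1 := by rw [← map_mul, mul_inv_cancel₀ hc0, map_one]
    linear_combination h1 + C c * (expand ℂ d q.num - C t * q.num) * e
  have hco : ∀ m, (expand ℂ d p).coeff m - t * p.coeff m =
      ∑ i, if m = j i then g i else 0 := fun m => by
    have := congrArg (fun P => coeff P m) hpe
    simp only [coeff_sub, coeff_C_mul, finsetSum_coeff] at this
    rw [this]
    exact sum_congr rfl fun i _ => by simp [coeff_X_pow]
  funext i
  by_contra hgi
  have hstep : ∀ k, p.coeff (j i * d ^ k) = t * p.coeff (j i * d ^ (k + 1)) := fun k => by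
    have h3 := hco (j i * d ^ (k + 1))
    rw [pow_succ, ← mul_assoc, coeff_expand_mul hd0, sum_eq_zero fun l _ => if_neg
      fun hl => hj l ⟨j i * d ^ k, by rw [← hl]; ring⟩, sub_eq_zero] at h3
    rw [pow_succ, ← mul_assoc]
    exact h3
  have hall : ∀ k, p.coeff (j i) = t ^ k * p.coeff (j i * d ^ k) := fun k => by
    induction k with
    | zero => simp
    | succ k ih => rw [ih, hstep k]; ring
  have hj0 : 0 < j i := Nat.pos_of_ne_zero fun h0 => hj i (h0 ▸ dvd_zero d)
  have hp0 : p.coeff (j i) = 0 := by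
    rw [hall (p.natDegree + 1), coeff_eq_zero_of_natDegree_lt ((Nat.lt_succ_self _).trans_le
      ((Nat.lt_pow_self (by omega)).le.trans (Nat.le_mul_of_pos_left _ hj0))), mul_zero]
  have h4 := hco (j i)
  rw [coeff_expand hd0, if_neg (hj i), hp0, mul_zero, sub_zero, sum_eq_single i
    (fun l _ hl => by
      split_ifs with e
      · by_contra hgl
        exact hl (hg l i hgl hgi e.symm)
      · rfl) (fun hi => absurd (mem_univ i) hi), if_pos rfl] at h4
  exact hgi h4.symm

/-- **Independence over all `(a, j)`.** -/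
theorem algebraicIndependent_geomLacunary (hd : 2 ≤ d) {α : ℂ} (hα : IsAlgebraic ℚ α)
    (hα0 : α ≠ 0) (hα1 : ‖α‖ < 1) :
    AlgebraicIndependent ℚ fun p : {p : ℂ × ℕ // IsAlgebraic ℚ p.1 ∧ p.1 ≠ 0 ∧ ¬ d ∣ p.2} =>
      geomLacunary d p.1.1 p.1.2 α := by
  classical
  rw [algebraicIndependent_iff]
  intro P hP
  obtain ⟨n, e, he, R, rfl⟩ := MvPolynomial.exists_fin_rename P
  set F := IntermediateField.adjoin ℚ (Set.range fun i => (e i).1.1)
  haveI : FiniteDimensional ℚ F :=
    IntermediateField.finiteDimensional_adjoin fun z hz => by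
      obtain ⟨i, rfl⟩ := hz
      exact (e i).2.1.isIntegral
  haveI : NumberField F := { }
  let a : Fin n → F := fun i => ⟨(e i).1.1, IntermediateField.subset_adjoin ℚ _ ⟨i, rfl⟩⟩
  have ha : ∀ i, a i ≠ 0 := fun i h => (e i).2.2.1 (congrArg Subtype.val h)
  have hj : ∀ i, 0 < (e i).1.2 := fun i => Nat.pos_of_ne_zero fun h0 =>
    (e i).2.2.2 (h0 ▸ dvd_zero d)
  let ψ : F →+* ℂ := F.val.toRingHom
  let c : Fin n → ℕ → F := fun i m =>
    ∑ k ∈ {k ∈ range (m + 1) | (e i).1.2 * d ^ k = m}, a i ^ k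
  have hrep : ∀ i, Rep ψ (PowerSeries.mk (c i)) (geomLacunary d (e i).1.1 (e i).1.2) := fun i => by
    refine rep_of_family (ψ := ψ) (fun k : ℕ => (e i).1.2 * d ^ k)
      (fun m => {k ∈ range (m + 1) | (e i).1.2 * d ^ k = m}) (fun m k => ?_) (fun k => a i ^ k)
      fun z hz => ?_
    · simp only [mem_filter, mem_range, and_iff_right_iff_imp]
      intro h
      have h1 : k < d ^ k := Nat.lt_pow_self (by omega)
      have h2 := Nat.le_mul_of_pos_left (d ^ k) (hj i)
      omega
    · simpa [ψ, a] using summable_geomLacunary hd (e i).1.1 (hj i) hz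
  have h := algebraicIndependent_values ψ c hrep hd (fun i => (a i)⁻¹)
    (fun i => inv_ne_zero (ha i)) (fun i => -Polynomial.C (a i)⁻¹ * Polynomial.X ^ (e i).1.2)
    (fun _ => 1) (fun i z hz => by
      simp [geomLacunary_eq hd (e i).2.2.1 (hj i) hz, ψ, a, sub_eq_add_neg])
    (fun t g q hg hq => by
      have h1 := geomLacunary_criterion hd (j := fun i => (e i).1.2) (fun i => (e i).2.2.2)
        (g := fun i => g i * -((e i).1.1)⁻¹) (fun i l hgi hgl hjl => he (Subtype.ext (Prod.ext ?_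
          hjl))) t q ?_
      · funext i
        simpa [(e i).2.2.1] using congrFun h1 i
      · have h2 := hg i (left_ne_zero_of_mul hgi)
        have h3 := hg l (left_ne_zero_of_mul hgl)
        simpa [ψ, a] using h2.trans h3.symm
      · rw [hq, map_sum]
        refine sum_congr rfl fun i _ => ?_
        simp [ψ, a, ← RatFunc.algebraMap_C, mul_assoc]) hα hα0 hα1 (fun i k => by simp)
  rw [MvPolynomial.aeval_rename] at hP
  rw [algebraicIndependent_iff.1 h R hP, map_zero]

end FA.MahlerTwist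

end
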