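import Fermat.Agent.MahlerIndependence.FunctionRelations
import Mathlib.FieldTheory.RatFunc.AsPolynomial
import Mathlib.Order.Filter.Germ.Basic
import Mathlib.Analysis.Normed.Field.Lemmas

/-!
# Algebraic relations between solutions of `f (z ^ d) = a f (z) + b (z)`

The ideal of relations over `ℂ (z)` is stable under `z ↦ z ^ d`, `y ↦ a y + b`. A relation with
leading coefficient `1` and fewest leading terms is then an eigenvector, so that its leading
coefficients are constants and the next ones give `q (z ^ d) - a q (z) = ∑ γ b` with `γ ≠ 0`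
supported where the multiplier is `a` (Kubota, Loxton–van der Poorten).
-/

set_option autoImplicit false

noncomputable section

namespace FA.MahlerTwist

open Finset
open FA.MahlerIndependence (coeff_prod_translate degree_le_of_le exists_lt_of_degree)

variable {k L : Type*} [Field k] [Field L] {n : ℕ} (σ : L →+* L) (ι : k →+* L) (a : Fin n → k)
  (b : Fin n → L)

/-- `P (σ z, a y + b)`. -/
def twist : MvPolynomial (Fin n) L →+* MvPolynomial (Fin n) L :=
  MvPolynomial.eval₂Hom (MvPolynomial.C.comp σ) fun i =>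
    MvPolynomial.C (ι (a i)) * (MvPolynomial.X i + MvPolynomial.C ((ι (a i))⁻¹ * b i))

theorem coeff_twist (P : MvPolynomial (Fin n) L) (ρ : Fin n →₀ ℕ) :
    MvPolynomial.coeff ρ (twist σ ι a b P) = ∑ ν ∈ P.support, σ (MvPolynomial.coeff ν P) *
      ((∏ i, ι (a i) ^ ν i) *
        ∏ i, ((ν i).choose (ρ i) : L) * ((ι (a i))⁻¹ * b i) ^ (ν i - ρ i)) := by
  rw [twist, MvPolynomial.coe_eval₂Hom, MvPolynomial.eval₂_eq', MvPolynomial.coeff_sum]
  refine sum_congr rfl fun ν _ => ?_
  rw [RingHom.comp_apply, MvPolynomial.coeff_C_mul, prod_congr rfl fun i _ => mul_pow _ _ _,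
    prod_mul_distrib]
  simp only [← map_pow, ← map_prod]
  rw [MvPolynomial.coeff_C_mul, coeff_prod_translate]

theorem coeff_twist_top {P : MvPolynomial (Fin n) L} {ρ : Fin n →₀ ℕ}
    (hρ : P.totalDegree ≤ ρ.degree) : MvPolynomial.coeff ρ (twist σ ι a b P) =
      σ (MvPolynomial.coeff ρ P) * ι (∏ i, a i ^ ρ i) := by
  rw [coeff_twist, sum_eq_single ρ]
  · simp
  · intro ν hν hne
    obtain ⟨i, hi⟩ := exists_lt_of_degree ((MvPolynomial.le_totalDegree hν).trans hρ) hne
    rw [prod_eq_zero (s := univ) (f := fun i => ((ν i).choose (ρ i) : L) * _) (mem_univ i)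
      (by rw [Nat.choose_eq_zero_of_lt hi]; simp), mul_zero, mul_zero]
  · intro h
    rw [MvPolynomial.notMem_support_iff.1 h, map_zero, zero_mul]

theorem coeff_twist_sub_top {P : MvPolynomial (Fin n) L} {ρ : Fin n →₀ ℕ}
    (hρ : P.totalDegree ≤ ρ.degree + 1) (ha : ∀ i, a i ≠ 0) :
    MvPolynomial.coeff ρ (twist σ ι a b P) = ι (∏ i, a i ^ ρ i) *
      (σ (MvPolynomial.coeff ρ P) + ∑ l, σ (MvPolynomial.coeff (ρ + Finsupp.single l 1) P) *
        ((ρ l + 1 : ℕ) : L) * b l) := by
  classical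
  set T : (Fin n →₀ ℕ) → L := fun ν => σ (MvPolynomial.coeff ν P) * ((∏ i, ι (a i) ^ ν i) *
    ∏ i, ((ν i).choose (ρ i) : L) * ((ι (a i))⁻¹ * b i) ^ (ν i - ρ i)) with hT
  set S : Finset (Fin n →₀ ℕ) := insert ρ (univ.image fun l => ρ + Finsupp.single l 1) with hS
  have hnot : ρ ∉ univ.image fun l => ρ + Finsupp.single l 1 := fun h => by
    obtain ⟨l, -, hl⟩ := mem_image.1 h
    have := congrArg (fun v : Fin n →₀ ℕ => v l) hl
    simp at this
  have hzero : ∀ ν ∈ P.support, ν ∉ S → T ν = 0 := fun ν hν hν' => by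
    by_cases hle : ∀ i, ρ i ≤ ν i
    · exfalso
      simp only [hS, mem_insert, mem_image, mem_univ, true_and, not_or, not_exists] at hν'
      obtain ⟨l, hl⟩ : ∃ l, ρ l < ν l := by
        by_contra hc
        push Not at hc
        exact hν'.1 (Finsupp.ext fun i => le_antisymm (hc i) (hle i))
      refine hν'.2 l (degree_le_of_le (fun i => ?_) ?_).symm
      · rcases eq_or_ne l i with rfl | hli
        · simp
          omega
        · simp [Finsupp.single_eq_of_ne' hli, hle i]
      · rw [map_add, Finsupp.degree_single]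
        exact (MvPolynomial.le_totalDegree hν).trans hρ
    · push Not at hle
      obtain ⟨i, hi⟩ := hle
      rw [hT]
      dsimp only
      rw [prod_eq_zero (s := univ) (f := fun i => ((ν i).choose (ρ i) : L) * _) (mem_univ i)
        (by rw [Nat.choose_eq_zero_of_lt hi]; simp), mul_zero, mul_zero]
  have hsum : ∑ ν ∈ P.support, T ν = ∑ ν ∈ S, T ν := by
    rw [sum_subset (subset_union_left (s₁ := P.support) (s₂ := S)) fun ν _ h => by
      simp [hT, MvPolynomial.notMem_support_iff.1 h]]
    symm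
    refine sum_subset subset_union_right fun ν hν h => hzero ν ?_ h
    exact (mem_union.1 hν).resolve_right h
  rw [coeff_twist, hsum, hS, sum_insert hnot, sum_image fun l _ m _ h => by
    by_contra hne
    have := congrArg (fun v : Fin n →₀ ℕ => v l) h
    simp [Finsupp.single_eq_of_ne' (Ne.symm hne)] at this, mul_add, mul_sum]
  refine congrArg₂ _ (by simp [hT, mul_comm]) (sum_congr rfl fun l _ => ?_)
  rw [hT]
  dsimp only
  rw [Fintype.prod_eq_single (f := fun i => ((_ : ℕ).choose (ρ i) : L) * _) l fun i hi => by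
    simp [Finsupp.single_eq_of_ne' (Ne.symm hi)]]
  simp only [Finsupp.add_apply, Finsupp.single_eq_same, Nat.add_sub_cancel_left, pow_one,
    Nat.choose_succ_self_right, pow_add, prod_mul_distrib, map_prod, map_pow]
  rw [Fintype.prod_eq_single (f := fun i => ι (a i) ^ Finsupp.single l 1 i) l fun i hi => by
    simp [Finsupp.single_eq_of_ne' (Ne.symm hi)], Finsupp.single_eq_same, pow_one]
  field_simp [(map_ne_zero ι).2 (ha l)]

theorem totalDegree_twist_le (P : MvPolynomial (Fin n) L) :
    (twist σ ι a b P).totalDegree ≤ P.totalDegree := by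
  refine Finset.sup_le fun ρ hρ => ?_
  by_contra hc
  push Not at hc
  have h := coeff_twist_top σ ι a b (P := P) (ρ := ρ) hc.le
  rw [MvPolynomial.coeff_eq_zero_of_totalDegree_lt (f := P) (d := ρ) hc, map_zero, zero_mul] at h
  exact MvPolynomial.mem_support_iff.1 hρ h

/-- The monomials of the top degree. -/
def topSupport (P : MvPolynomial (Fin n) L) (D : ℕ) : Finset (Fin n →₀ ℕ) :=
  {ν ∈ P.support | ν.degree = D}

variable {σ ι a b}

/-- **A stable ideal without constants is zero.** -/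
theorem eq_zero_of_stable [CharZero k] (ha : ∀ i, a i ≠ 0)
    (hfix : ∀ (t : k) (x : L), t ≠ 0 → σ x = ι t * x → ∃ c : k, x = ι c ∧ (c ≠ 0 → t = 1))
    (hb : ∀ (t : k) (g : Fin n → k) (q : L), (∀ i, g i ≠ 0 → a i = t) →
      σ q - ι t * q = ∑ i, ι (g i) * b i → g = 0)
    (I : Ideal (MvPolynomial (Fin n) L)) (hI : ∀ P ∈ I, twist σ ι a b P ∈ I) (hI1 : I ≠ ⊤)
    {P : MvPolynomial (Fin n) L} (hP : P ∈ I) : P = 0 := by
  classical
  suffices h : ∀ D m : ℕ, ∀ P : MvPolynomial (Fin n) L, P.totalDegree ≤ D →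
      (topSupport P D).card ≤ m → P ∈ I → P = 0 from h _ _ P le_rfl le_rfl hP
  clear hP P
  intro D
  induction D using Nat.strong_induction_on with
  | _ D ihD =>
  intro m
  induction m using Nat.strong_induction_on with
  | _ m ihm =>
  intro P₀ hdeg₀ hcard hP₀
  rcases (topSupport P₀ D).eq_empty_or_nonempty with hempty | ⟨μ, hμ⟩
  · rcases Nat.eq_zero_or_pos D with rfl | hD
    · refine MvPolynomial.support_eq_empty.1 (eq_empty_of_forall_notMem fun ν hν => ?_)
      have : ν ∈ topSupport P₀ 0 := mem_filter.2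
        ⟨hν, Nat.le_zero.1 ((MvPolynomial.le_totalDegree hν).trans hdeg₀)⟩
      simp [hempty] at this
    · refine ihD (D - 1) (by omega) _ P₀ ?_ le_rfl hP₀
      refine Finset.sup_le fun ν hν => ?_
      rcases ((MvPolynomial.le_totalDegree hν).trans hdeg₀).eq_or_lt with h2 | h2
      · have : ν ∈ topSupport P₀ D := mem_filter.2 ⟨hν, h2⟩
        simp [hempty] at this
      · exact Nat.le_sub_one_of_lt h2
  obtain ⟨hμs, hμd⟩ := mem_filter.1 hμ
  exfalso
  -- normalise
  set p := MvPolynomial.coeff μ P₀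
  have hp : p ≠ 0 := MvPolynomial.mem_support_iff.1 hμs
  set P := MvPolynomial.C p⁻¹ * P₀ with hPdef
  have hP : P ∈ I := I.mul_mem_left _ hP₀
  have hdeg : P.totalDegree ≤ D := (MvPolynomial.totalDegree_mul _ _).trans
    (by rw [MvPolynomial.totalDegree_C, zero_add]; exact hdeg₀)
  have hμ1 : MvPolynomial.coeff μ P = 1 := by
    rw [hPdef, MvPolynomial.coeff_C_mul, inv_mul_cancel₀ hp]
  have hPsub : topSupport P D ⊆ topSupport P₀ D := fun ν hν => by
    obtain ⟨hν, hνd⟩ := mem_filter.1 hν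
    refine mem_filter.2 ⟨MvPolynomial.mem_support_iff.2 fun h0 => ?_, hνd⟩
    exact MvPolynomial.mem_support_iff.1 hν (by
      rw [hPdef, MvPolynomial.coeff_C_mul, h0, mul_zero])
  set t := ι (∏ i, a i ^ μ i) with ht
  set Q := twist σ ι a b P - MvPolynomial.C t * P with hQ
  have hQ0 : Q = 0 := by
    have hQdeg : Q.totalDegree ≤ D := by
      refine (MvPolynomial.totalDegree_sub _ _).trans (max_le ?_ ?_)
      · exact (totalDegree_twist_le σ ι a b P).trans hdeg
      · exact (MvPolynomial.totalDegree_mul _ _).trans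
          (by rw [MvPolynomial.totalDegree_C, zero_add]; exact hdeg)
    have hsub : topSupport Q D ⊆ (topSupport P D).erase μ := fun ν hν => by
      obtain ⟨hν, hνd⟩ := mem_filter.1 hν
      rw [MvPolynomial.mem_support_iff, hQ, MvPolynomial.coeff_sub, MvPolynomial.coeff_C_mul,
        coeff_twist_top σ ι a b (hdeg.trans hνd.ge)] at hν
      refine mem_erase.2 ⟨?_, mem_filter.2 ⟨MvPolynomial.mem_support_iff.2 ?_, hνd⟩⟩
      · rintro rfl
        exact hν (by rw [hμ1, map_one, one_mul, mul_one, sub_self])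
      · intro h0
        exact hν (by rw [h0, map_zero, zero_mul, mul_zero, sub_zero])
    refine ihm (topSupport Q D).card ?_ Q hQdeg le_rfl (I.sub_mem (hI P hP) (I.mul_mem_left _ hP))
    have := card_le_card hsub
    have hμP : μ ∈ topSupport P D :=
      mem_filter.2 ⟨MvPolynomial.mem_support_iff.2 (by rw [hμ1]; exact one_ne_zero), hμd⟩
    rw [card_erase_of_mem hμP] at this
    have := card_le_card hPsub
    have := card_pos.2 ⟨μ, hμP⟩
    omega
  have hcoef : ∀ ν, MvPolynomial.coeff ν (twist σ ι a b P) = t * MvPolynomial.coeff ν P :=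
      fun ν => by
    have := congrArg (MvPolynomial.coeff ν) hQ0
    rwa [hQ, MvPolynomial.coeff_sub, MvPolynomial.coeff_C_mul, MvPolynomial.coeff_zero,
      sub_eq_zero] at this
  have hprod : ∀ ν : Fin n →₀ ℕ, ∏ i, a i ^ ν i ≠ 0 :=
    fun ν => prod_ne_zero_iff.2 fun i _ => pow_ne_zero _ (ha i)
  rcases Nat.eq_zero_or_pos D with rfl | hD
  · refine hI1 (Ideal.eq_top_of_isUnit_mem I hP ?_)
    rw [MvPolynomial.totalDegree_eq_zero_iff_eq_C.1 (Nat.le_zero.1 hdeg)]
    refine IsUnit.map MvPolynomial.C (isUnit_iff_ne_zero.2 ?_)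
    rw [← (Finsupp.degree_eq_zero_iff μ).1 hμd, hμ1]
    exact one_ne_zero
  obtain ⟨i, hi⟩ : ∃ i, 0 < μ i := by
    by_contra hc
    push Not at hc
    have : μ = 0 := Finsupp.ext fun i => Nat.le_zero.1 (hc i)
    rw [this, map_zero] at hμd
    omega
  set ρ := μ - Finsupp.single i 1
  have hρi : ρ + Finsupp.single i 1 = μ := by
    ext l
    rcases eq_or_ne i l with rfl | hl
    · simp [ρ]
      omega
    · simp [ρ, Finsupp.single_eq_of_ne' hl]
  have hρd : ρ.degree + 1 = D := by rw [← hμd, ← hρi, map_add, Finsupp.degree_single]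
  have hsucc : ∀ l : Fin n, ∏ j, a j ^ (ρ + Finsupp.single l 1 : Fin n →₀ ℕ) j =
      a l * ∏ j, a j ^ ρ j := fun l => by
    simp only [Finsupp.add_apply, pow_add, prod_mul_distrib]
    rw [Fintype.prod_eq_single (f := fun j => a j ^ Finsupp.single l 1 j) l fun j hj => by
      simp [Finsupp.single_eq_of_ne' (Ne.symm hj)], Finsupp.single_eq_same, pow_one, mul_comm]
  have hμa : ∏ j, a j ^ μ j = a i * ∏ j, a j ^ ρ j := by rw [← hρi]; exact hsucc i
  have htop : ∀ l : Fin n, ∃ c : k, MvPolynomial.coeff (ρ + Finsupp.single l 1) P = ι c ∧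
      (c ≠ 0 → a l = a i) := fun l => by
    have h := hcoef (ρ + Finsupp.single l 1)
    have hd' : (ρ + Finsupp.single l 1).degree = D := by
      rw [map_add, Finsupp.degree_single, hρd]
    rw [coeff_twist_top σ ι a b (hdeg.trans hd'.ge), ht, hsucc, hμa] at h
    obtain ⟨c, hc, hct⟩ := hfix (a i / a l) (MvPolynomial.coeff (ρ + Finsupp.single l 1) P)
      (div_ne_zero (ha i) (ha l)) (by
        have h1 := (map_ne_zero ι).2 (ha l)
        have h2 := (map_ne_zero ι).2 (hprod ρ)
        rw [map_div₀, div_mul_eq_mul_div, eq_div_iff h1]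
        refine mul_right_cancel₀ h2 ?_
        rw [map_mul, map_mul] at h
        linear_combination h)
    exact ⟨c, hc, fun hc0 => ((div_eq_one_iff_eq (ha l)).1 (hct hc0)).symm⟩
  choose c hc hca using htop
  have hci : c i = 1 := by
    have h := hc i
    rw [hρi, hμ1, ← map_one ι] at h
    exact (ι.injective h).symm
  set g : Fin n → k := fun l => -(c l * ((ρ l + 1 : ℕ) : k)) with hg
  have hgz := congrFun (hb (a i) g (MvPolynomial.coeff ρ P) (fun l hl => hca l fun h0 => hl (by
      simp [hg, h0])) (by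
    have h := hcoef ρ
    rw [coeff_twist_sub_top σ ι a b (hdeg.trans hρd.ge) ha, ht, hμa, map_mul] at h
    have e : ∀ l, σ (ι (c l)) = ι (c l) := fun l => by
      have h' := hcoef (ρ + Finsupp.single l 1)
      have hd' : (ρ + Finsupp.single l 1).degree = D := by
        rw [map_add, Finsupp.degree_single, hρd]
      rw [coeff_twist_top σ ι a b (hdeg.trans hd'.ge), ht, hc l, hsucc, hμa] at h'
      rcases eq_or_ne (c l) 0 with h0 | h0
      · simp [h0]
      · rw [hca l h0, mul_comm (ι _) (ι (c l))] at h'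
        exact mul_right_cancel₀
          ((map_ne_zero ι).2 (mul_ne_zero (ha i) (hprod ρ))) h'
    simp only [hc, e] at h
    refine mul_left_cancel₀ ((map_ne_zero ι).2 (hprod ρ)) ?_
    simp only [hg, map_neg, map_mul, map_natCast, neg_mul, sum_neg_distrib]
    linear_combination h)) i
  simp only [hg, hci, one_mul, Pi.zero_apply, neg_eq_zero, Nat.cast_eq_zero] at hgz
  omega

section Complex

open Filter Topology Polynomial

variable {d : ℕ}

/-- `r (z ^ d)`. -/
def frob (hd : 0 < d) : RatFunc ℂ →+* RatFunc ℂ :=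
  RatFunc.liftRingHom ((algebraMap ℂ[X] (RatFunc ℂ)).comp (expand ℂ d).toRingHom)
    fun p hp => mem_nonZeroDivisors_of_ne_zero fun h0 => nonZeroDivisors.ne_zero hp
      (expand_injective hd ((RatFunc.algebraMap_injective ℂ) (by simpa using h0)))

theorem frob_algebraMap (hd : 0 < d) (p : ℂ[X]) :
    frob hd (algebraMap ℂ[X] (RatFunc ℂ) p) = algebraMap _ _ (expand ℂ d p) :=
  RatFunc.liftRingHom_algebraMap _ _ _

theorem frob_C (hd : 0 < d) (c : ℂ) : frob hd (RatFunc.C c) = RatFunc.C c := by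
  rw [← RatFunc.algebraMap_C, frob_algebraMap, expand_C]

/-- **The eigenfunctions of `z ↦ z ^ d` are constants.** -/
theorem frob_fix (hd : 2 ≤ d) {t : ℂ} {x : RatFunc ℂ} (ht : t ≠ 0)
    (h : frob (by omega : 0 < d) x = RatFunc.C t * x) :
    ∃ c, x = RatFunc.C c ∧ (c ≠ 0 → t = 1) := by
  have hd0 : 0 < d := by omega
  rcases eq_or_ne x 0 with rfl | hx
  · exact ⟨0, by simp, fun h => absurd rfl h⟩
  have hn : x.num ≠ 0 := RatFunc.num_ne_zero hx
  have hden : x.denom ≠ 0 := RatFunc.denom_ne_zero x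
  have hcop : IsCoprime x.num x.denom := RatFunc.isCoprime_num_denom x
  rw [← RatFunc.num_div_denom x, map_div₀, frob_algebraMap, frob_algebraMap,
    ← RatFunc.algebraMap_C, ← mul_div_assoc, ← map_mul, div_eq_div_iff
      (RatFunc.algebraMap_ne_zero fun e => hden (expand_injective hd0 (by rw [e, map_zero])))
      (RatFunc.algebraMap_ne_zero hden), ← map_mul, ← map_mul] at h
  have h' := RatFunc.algebraMap_injective ℂ h
  have hcop' : IsCoprime (expand ℂ d x.num) (expand ℂ d x.denom) :=
    hcop.map (expand ℂ d).toRingHom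
  have h1 : x.denom.natDegree = 0 := by
    refine FA.MahlerIndependence.eq_const_of_expand_dvd hd hden ?_
    refine hcop'.symm.dvd_of_dvd_mul_left ⟨C t * x.num, ?_⟩
    rw [h']; ring
  have h2 : x.num.natDegree = 0 := by
    refine FA.MahlerIndependence.eq_const_of_expand_dvd hd hn ?_
    have h3 : expand ℂ d x.num ∣ C t * x.num * expand ℂ d x.denom := ⟨x.denom, h'.symm⟩
    have h4 := hcop'.dvd_of_dvd_mul_right h3
    exact ((isUnit_C.2 (isUnit_iff_ne_zero.2 ht)).dvd_mul_left).1 h4
  obtain ⟨u, hu⟩ := natDegree_eq_zero.1 h1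
  obtain ⟨v, hv⟩ := natDegree_eq_zero.1 h2
  refine ⟨v / u, ?_, fun _ => ?_⟩
  · rw [map_div₀, ← RatFunc.algebraMap_C, ← RatFunc.algebraMap_C, hu, hv, RatFunc.num_div_denom]
  · rw [← hu, ← hv, expand_C, expand_C, ← map_mul, ← map_mul, ← map_mul] at h'
    have h5 := C_injective h'
    have hu0 : u ≠ 0 := fun e => hden (by rw [← hu, e, map_zero])
    have hv0 : v ≠ 0 := fun e => hn (by rw [← hv, e, map_zero])
    field_simp at h5
    exact h5.symm

theorem eventually_eval_ne_zero {p : ℂ[X]} (hp : p ≠ 0) :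
    ∀ᶠ z in 𝓝[≠] (0 : ℂ), p.eval z ≠ 0 := by
  have hopen : IsOpen {z : ℂ | z ∉ p.roots.toFinset.erase 0} :=
    (Finset.finite_toSet _).isClosed.isOpen_compl
  filter_upwards [nhdsWithin_le_nhds (hopen.mem_nhds (by simp)), self_mem_nhdsWithin]
    with z hz hz0 he
  exact hz (mem_erase.2 ⟨hz0, Multiset.mem_toFinset.2 ((mem_roots hp).2 he)⟩)

/-- **No relation.** -/
theorem no_relation (hd : 2 ≤ d) {n : ℕ} {f : Fin n → ℂ → ℂ} {a : Fin n → ℂ} (ha : ∀ i, a i ≠ 0)
    {u v : Fin n → ℂ[X]} (hv : ∀ i, v i ≠ 0)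
    (heq : ∀ i, ∀ z : ℂ, ‖z‖ < 1 →
      (v i).eval z * f i (z ^ d) = (v i).eval z * (a i * f i z) + (u i).eval z)
    (hb : ∀ (t : ℂ) (g : Fin n → ℂ) (q : RatFunc ℂ), (∀ i, g i ≠ 0 → a i = t) →
      frob (by omega : 0 < d) q - RatFunc.C t * q = ∑ i, RatFunc.C (g i) *
        (algebraMap ℂ[X] (RatFunc ℂ) (u i) / algebraMap _ _ (v i)) → g = 0)
    {P : MvPolynomial (Fin n) ℂ[X]}
    (hP : ∀ᶠ z in 𝓝[≠] (0 : ℂ),
      MvPolynomial.eval₂ (evalRingHom z) (fun i => f i z) P = 0) : P = 0 := by
  have hd0 : 0 < d := by omega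
  set l : Filter ℂ := 𝓝[≠] 0
  set germ : (ℂ → ℂ) →+* Germ l ℂ := Germ.coeRingHom l
  let ev : ℂ[X] →+* Germ l ℂ := germ.comp (RingHom.pi fun z => evalRingHom z)
  have hunit : ∀ p : nonZeroDivisors ℂ[X], IsUnit (ev p) := fun p => by
    refine IsUnit.of_mul_eq_one (germ fun z => ((p : ℂ[X]).eval z)⁻¹) ?_
    rw [show ev p * _ = germ _ from (map_mul germ _ _).symm, ← map_one germ]
    refine Germ.coe_eq.2 ?_
    filter_upwards [eventually_eval_ne_zero (nonZeroDivisors.coe_ne_zero p)] with z hz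
    exact mul_inv_cancel₀ hz
  let evR : RatFunc ℂ →+* Germ l ℂ := IsLocalization.lift hunit
  have hevR : ∀ p, evR (algebraMap ℂ[X] (RatFunc ℂ) p) = ev p :=
    fun p => IsLocalization.lift_eq hunit p
  let Φ : MvPolynomial (Fin n) (RatFunc ℂ) →+* Germ l ℂ :=
    MvPolynomial.eval₂Hom evR fun i => germ (f i)
  have hlim : Tendsto (fun z : ℂ => z ^ d) l l := by
    refine tendsto_nhdsWithin_iff.2 ⟨?_, eventually_nhdsWithin_of_forall fun z hz => ?_⟩
    · exact ((continuous_pow d).tendsto' 0 0 (zero_pow hd0.ne')).mono_left nhdsWithin_le_nhds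
    · exact pow_ne_zero d hz
  let τ : Germ l ℂ →+* Germ l ℂ :=
    { toFun := fun g => g.compTendsto _ hlim
      map_one' := rfl
      map_zero' := rfl
      map_add' := fun g₁ g₂ => Germ.inductionOn₂ g₁ g₂ fun _ _ => rfl
      map_mul' := fun g₁ g₂ => Germ.inductionOn₂ g₁ g₂ fun _ _ => rfl }
  have hτ : ∀ F : ℂ → ℂ, τ (germ F) = germ fun z => F (z ^ d) := fun F => rfl
  set b : Fin n → RatFunc ℂ := fun i => algebraMap ℂ[X] (RatFunc ℂ) (u i) / algebraMap _ _ (v i)
  have hevb : ∀ i, evR (b i) = germ fun z => (u i).eval z / (v i).eval z := fun i => by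
    have hu := hunit ⟨v i, mem_nonZeroDivisors_of_ne_zero (hv i)⟩
    refine hu.mul_right_cancel ?_
    show evR (b i) * ev (v i) = germ _ * ev (v i)
    rw [← hevR, ← map_mul, div_mul_cancel₀ _ (RatFunc.algebraMap_ne_zero (hv i)), hevR, hevR,
      show germ _ * ev (v i) = germ _ from (map_mul germ _ _).symm]
    refine Germ.coe_eq.2 ?_
    filter_upwards [eventually_eval_ne_zero (hv i)] with z hz
    exact (div_mul_cancel₀ _ hz).symm
  have hC : ∀ c : ℂ, evR (RatFunc.C c) = germ fun _ => c := fun c => by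
    rw [← RatFunc.algebraMap_C, hevR]
    show germ _ = germ _
    congr 1
    funext z
    simp
  have htw : Φ.comp (twist (frob hd0) RatFunc.C a b) = τ.comp Φ := by
    refine MvPolynomial.ringHom_ext (fun r => ?_) fun i => ?_
    · have h1 : evR.comp (frob hd0) = τ.comp evR := by
        refine IsLocalization.ringHom_ext (nonZeroDivisors ℂ[X]) (RingHom.ext fun p => ?_)
        simp only [RingHom.comp_apply, frob_algebraMap, hevR]
        show germ _ = germ _
        congr 1
        funext z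
        simp [expand_eval]
      simpa [Φ, twist] using congrFun (congrArg DFunLike.coe h1) r
    · simp only [RingHom.comp_apply, twist, MvPolynomial.eval₂Hom_X', Φ, map_mul, map_add,
        MvPolynomial.eval₂Hom_C, hevb, hC, hτ]
      rw [mul_add, ← mul_assoc, ← map_mul germ]
      have h2 : evR (RatFunc.C (a i)) * evR (RatFunc.C (a i))⁻¹ = 1 := by
        rw [← map_mul, mul_inv_cancel₀ ((_root_.map_ne_zero RatFunc.C).2 (ha i)), map_one]
      rw [← hC, h2, one_mul, ← map_add germ]
      refine Germ.coe_eq.2 ?_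
      filter_upwards [eventually_eval_ne_zero (hv i), nhdsWithin_le_nhds
        (Metric.ball_mem_nhds (0 : ℂ) one_pos)] with z hz hz1
      have := heq i z (by simpa using hz1)
      simp only [Pi.add_apply, Pi.mul_apply]
      field_simp
      linear_combination -this
  have h0 := eq_zero_of_stable (σ := frob hd0) (ι := RatFunc.C) (a := a) (b := b) ha
    (fun t x ht h => frob_fix hd ht h) hb (RingHom.ker Φ)
    (fun Q hQ => by
      rw [RingHom.mem_ker] at hQ ⊢
      rw [← RingHom.comp_apply, htw, RingHom.comp_apply, hQ, map_zero])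
    (RingHom.ker_ne_top Φ) (P := MvPolynomial.map (algebraMap ℂ[X] (RatFunc ℂ)) P) (by
      rw [RingHom.mem_ker]
      simp only [Φ, MvPolynomial.coe_eval₂Hom, MvPolynomial.eval₂_map]
      have h1 : evR.comp (algebraMap ℂ[X] (RatFunc ℂ)) = ev := RingHom.ext hevR
      rw [h1]
      show MvPolynomial.eval₂ (germ.comp _) (germ ∘ f) P = 0
      rw [← MvPolynomial.eval₂_comp_left, ← map_zero germ]
      refine Germ.coe_eq.2 ?_
      filter_upwards [hP] with z hz
      have := MvPolynomial.eval₂_comp_left (Pi.evalRingHom (fun _ : ℂ => ℂ) z)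
        (RingHom.pi fun z => evalRingHom z) f P
      simp only [Pi.evalRingHom_apply] at this
      rw [this, Pi.zero_apply]
      exact hz)
  exact MvPolynomial.map_injective _ (RatFunc.algebraMap_injective ℂ) (by rw [h0, map_zero])

end Complex

end FA.MahlerTwist

end
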