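import Fermat.Agent.MahlerTwist.NonVanishing
import Fermat.Agent.MahlerTwist.FunctionRelations
import Fermat.Agent.MahlerIndependence.Values

/-!
# Mahler's method with multipliers

If `f (z ^ d) = a f (z) + b (z)` then `f (α) = a ^ -k f (α ^ (d ^ k)) + c_k` with `c_k` of height
`O (d ^ k)`. The auxiliary polynomial in `z`, `c` and `a ^ -k` has values there of size
`|α| ^ (M d^k)` and of height `O (N d^k)`, not all zero, as the functions are independent.
-/

set_option autoImplicit false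
set_option linter.style.haveILetI false

noncomputable section

namespace FA.MahlerTwist

open Finset NumberField Module
open Filter Topology
open FA.Mahler (Rep Bd exists_bd)

variable {K : Type*} [Field K] {n : ℕ}

variable [NumberField K]

theorem bd_neg {W : ℝ} {e : ℕ} {x : K} (hx : Bd W e x) : Bd W e (-x) := by
  obtain ⟨m, m0, m1, m2, m3⟩ := hx
  refine ⟨m, m0, m1, by rw [mul_neg]; exact m2.neg, le_of_eq_of_le ?_ m3⟩
  simp [house]

theorem house_prod_le {α : Type*} (s : Finset α) (v : α → K) (w : α → ℝ)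
    (h : ∀ i ∈ s, house (v i) ≤ w i) : house (∏ i ∈ s, v i) ≤ ∏ i ∈ s, w i := by
  classical
  induction s using Finset.induction with
  | empty => simpa using FA.Mahler.house_one_le (K := K)
  | insert i s hi ih =>
    rw [prod_insert hi, prod_insert hi]
    exact (house_mul_le _ _).trans (mul_le_mul (h i (mem_insert_self i s))
      (ih fun j hj => h j (mem_insert_of_mem hj)) (house_nonneg _)
      ((house_nonneg _).trans (h i (mem_insert_self i s))))

set_option maxHeartbeats 1000000 in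
/-- **Mahler's argument with multipliers.** -/
theorem false_of_value_relation (ψ : K →+* ℂ) (c : Fin n → ℕ → K) {f : Fin n → ℂ → ℂ}
    (hf : ∀ i, Rep ψ (PowerSeries.mk (c i)) (f i)) {d : ℕ} (hd : 2 ≤ d) (a : Fin n → Kˣ)
    (u v : Fin n → Polynomial K)
    (heq : ∀ i, ∀ z : ℂ, ‖z‖ < 1 → ((v i).map ψ).eval z * f i (z ^ d) =
      ((v i).map ψ).eval z * (ψ (a i) * f i z) + ((u i).map ψ).eval z)
    (hb : ∀ (t : ℂ) (g : Fin n → ℂ) (q : RatFunc ℂ), (∀ i, g i ≠ 0 → ψ (a i) = t) →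
      frob (by omega : 0 < d) q - RatFunc.C t * q = ∑ i, RatFunc.C (g i) *
        (algebraMap (Polynomial ℂ) (RatFunc ℂ) ((u i).map ψ) /
          algebraMap _ _ ((v i).map ψ)) → g = 0)
    (α : K) (hα0 : α ≠ 0) (hα1 : ‖ψ α‖ < 1) (hv : ∀ i k, (v i).eval (α ^ d ^ k) ≠ 0)
    {R : MvPolynomial (Fin n) K} (hR : R ≠ 0)
    (hRα : MvPolynomial.eval₂ ψ (fun i => f i (ψ α)) R = 0) : False := by
  classical
  set g := univ.sup fun i => max (u i).natDegree (v i).natDegree
  obtain ⟨W, hW2, hbd⟩ := exists_bd (insert α ((univ.image fun i => ((a i)⁻¹ : Kˣ).val) ∪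
    ((univ ×ˢ range (g + 1)).image fun p : Fin n × ℕ => (u p.1).coeff p.2) ∪
    ((univ ×ˢ range (g + 1)).image fun p : Fin n × ℕ => (v p.1).coeff p.2)))
  have hW : 1 ≤ W := one_le_two.trans hW2
  have hu : ∀ k, Bd W (d ^ k) (α ^ d ^ k) := fun k => by
    simpa using (hbd α (mem_insert_self _ _)).pow hW (d ^ k)
  set G := (g + 1) * (g + 2)
  have hev : ∀ P : Polynomial K, P.natDegree ≤ g → (∀ j ≤ g, Bd W 1 (P.coeff j)) →
      ∀ k, Bd W (G * d ^ k) (P.eval (α ^ d ^ k)) := fun P hP hc k => by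
    rw [Polynomial.eval_eq_sum_range' (Nat.lt_succ_of_le hP)]
    refine (Bd.sum hW2 (e := 1 + g * d ^ k) (g + 1) fun j hj => ?_).mono hW ?_
    · exact ((hc j (by omega)).mul hW ((hu k).pow hW j)).mono hW
        (Nat.add_le_add_left (Nat.mul_le_mul_right _ (by omega)) _)
    · have : 1 ≤ d ^ k := Nat.one_le_pow _ _ (by omega)
      simp only [G]
      nlinarith
  have hdeg : ∀ i, (u i).natDegree ≤ g ∧ (v i).natDegree ≤ g := fun i =>
    max_le_iff.1 (le_sup (f := fun i => max (u i).natDegree (v i).natDegree) (mem_univ i))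
  have hmem : ∀ i, Bd W 1 ((a i)⁻¹ : Kˣ).val ∧
      ∀ j ≤ g, Bd W 1 ((u i).coeff j) ∧ Bd W 1 ((v i).coeff j) := fun i => by
    refine ⟨hbd _ ?_, fun j hj => ⟨hbd _ ?_, hbd _ ?_⟩⟩ <;>
      simp only [mem_insert, mem_union, mem_image, mem_product, mem_univ, true_and, mem_range] <;>
      refine Or.inr ?_
    exacts [Or.inl (Or.inl ⟨i, rfl⟩), Or.inl (Or.inr ⟨(i, j), by simp only; omega, rfl⟩),
      Or.inr ⟨(i, j), by simp only; omega, rfl⟩]
  set h := finrank ℚ K
  set I := 2 + (2 * h + 2) * G with hI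
  set J := I + 1
  let e : Fin n → K := fun i => ((a i)⁻¹ : Kˣ).val
  let cst : ℕ → Fin n → K := fun k i => -∑ j ∈ range k,
    e i ^ (j + 1) * ((u i).eval (α ^ d ^ j) * ((v i).eval (α ^ d ^ j))⁻¹)
  have hcst : ∀ k i, Bd W (J * d ^ k) (cst k i) := fun k i => by
    induction k with
    | zero => exact ⟨1, one_ne_zero, by simpa using one_le_pow₀ hW,
        by simpa [cst] using isIntegral_zero,
        by simpa [cst, house] using pow_nonneg (zero_le_one.trans hW) J⟩
    | succ k ih =>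
      have hk : 1 ≤ d ^ k := Nat.one_le_pow _ _ (by omega)
      have hk' : k + 1 ≤ 2 * d ^ k := by
        have := (Nat.lt_pow_self (show 1 < d by omega) : k < d ^ k)
        omega
      rw [show cst (k + 1) i = cst k i + -(e i ^ (k + 1) *
          ((u i).eval (α ^ d ^ k) * ((v i).eval (α ^ d ^ k))⁻¹)) by
        simp only [cst, sum_range_succ]; ring]
      refine (ih.add hW2 (e' := I * d ^ k) (bd_neg ?_)).mono hW ?_
      · refine ((((hmem i).1).pow hW (k + 1)).mul hW ((hev _ (hdeg i).1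
          (fun j hj => ((hmem i).2 j hj).1) k).mul hW ((hev _ (hdeg i).2
          (fun j hj => ((hmem i).2 j hj).2) k).inv hW (hv i k)))).mono hW ?_
        simp only [hI]
        nlinarith
      · have h2 : J * (2 * d ^ k) ≤ J * d ^ (k + 1) := by
          rw [pow_succ']; exact Nat.mul_le_mul_left _ (Nat.mul_le_mul_right _ hd)
        simp only [J] at h2 ⊢
        nlinarith
  have hz1 : ∀ k, ‖ψ α ^ d ^ k‖ < 1 := fun k => by
    rw [norm_pow]; exact pow_lt_one₀ (norm_nonneg _) hα1 (pow_ne_zero _ (by omega))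
  have hea : ∀ i, ψ (e i) * ψ (a i) = 1 := fun i => by
    rw [← map_mul]
    simp [e]
  have hval : ∀ k i, ψ (cst k i) = f i (ψ α) - ψ (e i) ^ k * f i (ψ α ^ d ^ k) := fun k i => by
    induction k with
    | zero => simp [cst]
    | succ k ih =>
      have h1 := heq i _ (hz1 k)
      simp only [← map_pow, Polynomial.eval_map, Polynomial.eval₂_hom] at h1
      have h0 : ψ ((v i).eval (α ^ d ^ k)) ≠ 0 := (map_ne_zero ψ).mpr (hv i k)
      rw [show cst (k + 1) i = cst k i + -(e i ^ (k + 1) *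
          ((u i).eval (α ^ d ^ k) * ((v i).eval (α ^ d ^ k))⁻¹)) by
        simp only [cst, sum_range_succ]; ring, map_add, ih, map_neg, map_mul, map_mul, map_pow,
        map_inv₀, pow_succ d, pow_mul]
      simp only [map_pow] at h1 h0 ⊢
      field_simp
      linear_combination (ψ (e i) ^ (k + 1)) * h1 +
        (ψ (e i) ^ k * ψ ((v i).eval (α ^ d ^ k)) * f i (ψ α ^ d ^ k)) * hea i
  -- the bound of the parameters
  have hball : ∀ i, ∃ B, 0 ≤ B ∧ ∀ z : ℂ, ‖z‖ ≤ 1 / 2 → ‖f i z‖ ≤ B * ‖z‖ ^ 0 :=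
    fun i => FA.MahlerIndependence.exists_bound (hf i) (fun m hm => absurd hm (by omega))
  choose B₁ hB₁0 hB₁ using hball
  set Γ := 1 + ∑ i, (B₁ i + ‖f i (ψ α)‖ + ‖ψ (e i)‖) with hΓdef
  have hΓi : ∀ i, 1 + (B₁ i + ‖f i (ψ α)‖ + ‖ψ (e i)‖) ≤ Γ := fun i => by
    rw [hΓdef]
    have := single_le_sum (f := fun i => B₁ i + ‖f i (ψ α)‖ + ‖ψ (e i)‖)
      (fun j _ => add_nonneg (add_nonneg (hB₁0 j) (norm_nonneg _)) (norm_nonneg _)) (mem_univ i)
    linarith
  have hΓ : 1 ≤ Γ := le_add_of_nonneg_right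
    (sum_nonneg fun j _ => add_nonneg (add_nonneg (hB₁0 j) (norm_nonneg _)) (norm_nonneg _))
  -- the parameter
  set r := ‖ψ α‖
  have hr0 : 0 < r := norm_pos_iff.mpr ((map_ne_zero ψ).mpr hα0)
  set E₂ := 1 + (n + n) * J with hE₂
  obtain ⟨s₀, hs₀⟩ := exists_pow_lt_of_lt_one
    (show 0 < 1 / (2 * W ^ (2 * h * E₂)) by positivity) hα1
  set s := s₀ + 2
  have hs : r ^ s * W ^ (2 * h * E₂) ≤ 1 / 2 := by
    have h1 : r ^ s ≤ r ^ s₀ := pow_le_pow_of_le_one hr0.le hα1.le (Nat.le_add_right _ _)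
    calc r ^ s * W ^ (2 * h * E₂) ≤ 1 / (2 * W ^ (2 * h * E₂)) * W ^ (2 * h * E₂) :=
          mul_le_mul_of_nonneg_right (h1.trans hs₀.le) (by positivity)
      _ = 1 / 2 := by field_simp
  obtain ⟨N, M, ee, η, B, hN1, hMN, hηi, ⟨j₀, hj₀⟩, hB0, hup⟩ :=
    exists_auxiliary (ψ := ψ) (adm_serR (a := a) (R := R) hf) (isLeftRegular_serR hR) (s := s)
      (by omega)
  let evK : ℕ → Params K n →+* K := fun k => evalParams k (cst k)
  have hevC : ∀ k x, evK k (algebraMap K (Params K n) x) = x := fun k x =>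
    evalParams_algebraMap k _ x
  have hevl : ∀ k i, evK k (gen a (.inl i)) = cst k i := fun k i => evalParams_inl k _ i
  have hevr : ∀ k i, evK k (gen a (.inr i)) = e i ^ k := fun k i => evalParams_inr k _ i
  have hgen : ∀ k i, Bd W (J * d ^ k) (evK k (gen a i)) := fun k i => by
    rcases i with i | i
    · rw [hevl]; exact hcst k i
    · rw [hevr]
      refine ((hmem i).1.pow hW k).mono hW ?_
      rw [mul_one]
      exact ((Nat.lt_pow_self (by omega : 1 < d)).le).trans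
        (Nat.le_mul_of_pos_left _ (by simp only [J]; omega))
  let x : Fin (N + 1) → Params K n := fun j => ∑ v, η j v • ∏ i, gen a i ^ (v i).val
  set Y : ℕ → K := fun k => ∑ t : Fin (N + 1) × (Fin n ⊕ Fin n → Fin (N + 1)),
    η t.1 t.2 * ((α ^ d ^ k) ^ t.1.val * ∏ i, evK k (gen a i) ^ (t.2 i).val) with hYdef
  have hY : ∀ k, Y k = ∑ j : Fin (N + 1), (α ^ d ^ k) ^ j.val * evK k (x j) := fun k => by
    simp only [Y, x, Fintype.sum_prod_type, map_sum, mul_sum, Algebra.smul_def, map_mul, hevC,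
      map_prod, map_pow]
    exact sum_congr rfl fun j _ => sum_congr rfl fun v _ => by ring
  have hlim : Tendsto (fun k : ℕ => ψ α ^ d ^ k) atTop (𝓝 0) :=
    (tendsto_pow_atTop_nhds_zero_of_norm_lt_one hα1).comp
      (tendsto_pow_atTop_atTop_of_one_lt (by omega : 1 < d))
  -- not all values vanish
  have hfreq : ∃ᶠ k in atTop, Y k ≠ 0 := by
    simp only [hY]
    exact frequently_sum_ne_zero hd (fun i => FA.MahlerIndependence.differentiableOn_of_rep (hf i))
      (fun P hP => no_relation hd (fun i => (map_ne_zero ψ).mpr (a i).ne_zero)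
        (u := fun i => (u i).map ψ) (v := fun i => (v i).map ψ) (fun i h0 => hv i 0 (by
          rw [(Polynomial.map_eq_zero ψ).1 h0, Polynomial.eval_zero])) heq hb hP)
      hα0 hα1 a cst hval x hj₀
  -- the house of the coefficients
  obtain ⟨E₀, hE₀⟩ := pow_unbounded_of_one_lt (∑ t : Fin (N + 1) × (Fin n ⊕ Fin n → Fin (N + 1)),
    house (η t.1 t.2)) (show 1 < W by linarith)
  set Q := W ^ E₀ with hQ
  have hQ1 : 1 ≤ Q := one_le_pow₀ hW
  have hlimB : Tendsto (fun k : ℕ =>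
      B * Γ ^ ee * Q ^ (2 * h) * ((Γ ^ ee) ^ k * (1 / 2 : ℝ) ^ d ^ k)) atTop (𝓝 0) := by
    simpa using (tendsto_pow_mul_pow_pow hd (by norm_num : (0 : ℝ) ≤ 1 / 2) (by norm_num)
      (ρ := Γ ^ ee) (by positivity)).const_mul (B * Γ ^ ee * Q ^ (2 * h))
  have hlim' : ∀ᶠ k : ℕ in atTop, ‖ψ α ^ d ^ k‖ ≤ 1 / 2 :=
    hlim.norm.eventually (ge_mem_nhds (by norm_num : ‖(0 : ℂ)‖ < 1 / 2))
  obtain ⟨k, hYk, hk1, hk2⟩ := (hfreq.and_eventually
    ((hlimB.eventually (gt_mem_nhds one_pos)).and hlim')).exists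
  -- the value
  have hle : ‖ψ (Y k)‖ ≤ B * (Γ ^ (k + 1)) ^ ee * ‖ψ α ^ d ^ k‖ ^ M := by
    have h1 : ψ (Y k) = ∑ j : Fin (N + 1), ∑ v, ψ (η j v) * ((ψ α ^ d ^ k) ^ j.val *
        ∏ i, (ψ.comp (evK k)) (gen a i) ^ (v i).val) := by
      simp [hYdef, Fintype.sum_prod_type, map_sum, map_prod]
    rw [h1]
    refine hup (ψ.comp (evK k)) (fun y => congrArg ψ (hevC k y)) _ (one_le_pow₀ hΓ) (fun i => ?_)
      _ hk2 ?_
    · rcases i with i | i
      · rw [RingHom.comp_apply, hevl, hval]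
        refine (norm_sub_le _ _).trans ?_
        rw [norm_mul, norm_pow, pow_succ]
        have h2 : ‖ψ (e i)‖ ^ k * ‖f i (ψ α ^ d ^ k)‖ ≤ Γ ^ k * B₁ i :=
          mul_le_mul (pow_le_pow_left₀ (norm_nonneg _) (by
            linarith [hΓi i, hB₁0 i, norm_nonneg (f i (ψ α))]) _)
            ((hB₁ i _ hk2).trans_eq (by rw [pow_zero, mul_one])) (norm_nonneg _) (by positivity)
        have h3 : ‖f i (ψ α)‖ ≤ Γ ^ k * ‖f i (ψ α)‖ :=
          le_mul_of_one_le_left (norm_nonneg _) (one_le_pow₀ hΓ)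
        nlinarith [hΓi i, norm_nonneg (ψ (e i)), one_le_pow₀ (n := k) hΓ]
      · rw [RingHom.comp_apply, hevr, map_pow, norm_pow]
        exact (pow_le_pow_left₀ (norm_nonneg _) (by
          linarith [hΓi i, hB₁0 i, norm_nonneg (f i (ψ α))]) _).trans
          (pow_le_pow_right₀ hΓ (Nat.le_succ k))
    · have hA : ∀ i, Rep (RingHom.id ℂ) (PowerSeries.C (ψ (e i) ^ k) *
          PowerSeries.map ψ (PowerSeries.mk (c i)) + PowerSeries.C (ψ (cst k i)))
          fun w => ψ (e i) ^ k * f i w + ψ (cst k i) := fun i => by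
        have h2 : Rep (RingHom.id ℂ) (PowerSeries.map ψ (PowerSeries.mk (c i))) (f i) :=
          fun w hw => by simpa using hf i w hw
        have h3 := ((FA.Mahler.rep_monomial (ψ := RingHom.id ℂ) 0 (ψ (e i) ^ k)).mul h2).add
          (FA.Mahler.rep_monomial (ψ := RingHom.id ℂ) 0 (ψ (cst k i)))
        simpa [PowerSeries.monomial_zero_eq_C] using h3
      have h4 : PowerSeries.map (ψ.comp (evK k)) (serR a c R) =
          MvPolynomial.eval₂ (PowerSeries.C.comp ψ) (fun i => PowerSeries.C (ψ (e i) ^ k) *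
            PowerSeries.map ψ (PowerSeries.mk (c i)) + PowerSeries.C (ψ (cst k i))) R :=
        map_evalParams_serR ψ k (cst k)
      have h5 := (FA.MahlerIndependence.rep_eval₂ hA ψ R _ (hz1 k)).2
      rw [← h4] at h5
      simp only [PowerSeries.coeff_map, RingHom.id_apply] at h5
      rw [h5, ← hRα]
      congr 1
      funext i
      rw [hval]
      ring
  obtain ⟨nu, nu0, nu1, nu2, nu3⟩ := hu k
  choose nv nv0 nv1 nv2 nv3 using hgen k
  set den : ℤ := nu ^ N * ∏ i, nv i ^ N with hden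
  set X : K := (den : K) * Y k with hX
  have hXi : IsIntegral ℤ X := by
    simp only [X, Y, Finset.mul_sum]
    refine IsIntegral.sum _ fun t _ => ?_
    have hj : t.1.val ≤ N := Nat.lt_succ_iff.mp t.1.isLt
    have hk' : ∀ i, (t.2 i).val ≤ N := fun i => Nat.lt_succ_iff.mp (t.2 i).isLt
    rw [hden]
    push_cast
    rw [show (nu : K) ^ N = (nu : K) ^ (N - t.1.val) * (nu : K) ^ t.1.val by
        rw [← pow_add, Nat.sub_add_cancel hj],
      show ∏ i, (nv i : K) ^ N = (∏ i, (nv i : K) ^ (N - (t.2 i).val)) *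
          ∏ i, (nv i : K) ^ (t.2 i).val by
        rw [← prod_mul_distrib]
        exact prod_congr rfl fun i _ => by rw [← pow_add, Nat.sub_add_cancel (hk' i)],
      show (nu : K) ^ (N - t.1.val) * (nu : K) ^ t.1.val *
        ((∏ i, (nv i : K) ^ (N - (t.2 i).val)) * ∏ i, (nv i : K) ^ (t.2 i).val) *
          (η t.1 t.2 * ((α ^ d ^ k) ^ t.1.val * ∏ i, evK k (gen a i) ^ (t.2 i).val)) =
        η t.1 t.2 * ((nu : K) ^ (N - t.1.val) * ∏ i, (nv i : K) ^ (N - (t.2 i).val)) *
          (((nu : K) * α ^ d ^ k) ^ t.1.val *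
            ∏ i, ((nv i : K) * evK k (gen a i)) ^ (t.2 i).val) by
        simp only [mul_pow, prod_mul_distrib]
        ring]
    exact ((hηi _ _).mul (((isIntegral_algebraMap (R := ℤ) (x := nu)).pow _).mul
      (IsIntegral.prod _ fun i _ => (isIntegral_algebraMap (R := ℤ) (x := nv i)).pow _))).mul
      ((nu2.pow _).mul (IsIntegral.prod _ fun i _ => (nv2 i).pow _))
  have hden0 : den ≠ 0 := mul_ne_zero (pow_ne_zero _ nu0)
    (prod_ne_zero_iff.2 fun i _ => pow_ne_zero _ (nv0 i))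
  have hX0 : (⟨X, hXi⟩ : 𝓞 K) ≠ 0 := fun h0 =>
    mul_ne_zero (Int.cast_ne_zero.mpr hden0) hYk (congrArg Subtype.val h0)
  set P := W ^ (N * E₂ * d ^ k) with hP
  have hP0 : 0 ≤ P := by positivity
  have hP' : (W ^ d ^ k) ^ N * ∏ _i : Fin n ⊕ Fin n, (W ^ (J * d ^ k)) ^ N = P := by
    rw [prod_const, card_univ, Fintype.card_sum, Fintype.card_fin, ← pow_mul, ← pow_mul,
      ← pow_mul, ← pow_add, hP, hE₂]
    congr 1
    ring
  have hdenP : |(den : ℝ)| ≤ P := by
    rw [hden, Int.cast_mul, Int.cast_pow, Int.cast_prod, abs_mul, abs_pow, abs_prod, ← hP']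
    refine mul_le_mul (pow_le_pow_left₀ (abs_nonneg _) nu1 _) (prod_le_prod
      (fun i _ => abs_nonneg _) fun i _ => ?_) (prod_nonneg fun i _ => abs_nonneg _)
      (by positivity)
    rw [Int.cast_pow, abs_pow]
    exact pow_le_pow_left₀ (abs_nonneg _) (nv1 i) _
  have hYh : house (Y k) ≤ Q * P := by
    refine (house_sum_le_sum_house _ _).trans ?_
    refine (Finset.sum_le_sum (g := fun t => house (η t.1 t.2) * P) fun t _ => ?_).trans ?_
    · refine (house_mul_le _ _).trans (mul_le_mul_of_nonneg_left ?_ (house_nonneg _))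
      rw [← hP']
      refine (house_mul_le _ _).trans (mul_le_mul ?_ (house_prod_le _ _ _ fun i _ => ?_)
        (house_nonneg _) (by positivity))
      · exact (house_pow_le _ _).trans ((pow_le_pow_left₀ (house_nonneg _) nu3 _).trans
          (pow_le_pow_right₀ (one_le_pow₀ hW) (Nat.lt_succ_iff.mp t.1.isLt)))
      · exact (house_pow_le _ _).trans ((pow_le_pow_left₀ (house_nonneg _) (nv3 i) _).trans
          (pow_le_pow_right₀ (one_le_pow₀ hW) (Nat.lt_succ_iff.mp (t.2 i).isLt)))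
    · rw [← Finset.sum_mul]
      exact mul_le_mul_of_nonneg_right hE₀.le hP0
  set Bk := B * (Γ ^ (k + 1)) ^ ee with hBk
  have hBk0 : 0 ≤ Bk := by positivity
  have hXψ : ‖ψ X‖ ≤ P * (Bk * (r ^ d ^ k) ^ M) := by
    rw [hX, map_mul, map_intCast, norm_mul, Complex.norm_intCast]
    refine mul_le_mul hdenP (hle.trans_eq ?_) (norm_nonneg _) hP0
    rw [norm_pow]
  have hXh : house X ≤ P * (Q * P) := by
    refine (house_mul_le _ _).trans (mul_le_mul ?_ hYh (house_nonneg _) hP0)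
    rw [house_intCast, Int.cast_abs]
    exact hdenP
  have hh : 0 < h := finrank_pos
  have hmain := (GelfondSchneider.one_le_norm_mul_house_pow hX0 ψ).trans (mul_le_mul hXψ
    (pow_le_pow_left₀ (house_nonneg _) hXh (h - 1)) (pow_nonneg (house_nonneg _) _) (by positivity))
  have hP2 : P * (P * (Q * P)) ^ (h - 1) ≤ P ^ (2 * h) * Q ^ (2 * h) := by
    have hP1 : 1 ≤ P := one_le_pow₀ hW
    rw [show P * (Q * P) = P ^ 2 * Q by ring, mul_pow, ← pow_mul, ← mul_assoc, ← pow_succ']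
    exact mul_le_mul (pow_le_pow_right₀ hP1 (by omega)) (pow_le_pow_right₀ hQ1 (by omega))
      (by positivity) (by positivity)
  have hfinal : (r ^ d ^ k) ^ M * P ^ (2 * h) ≤ (1 / 2 : ℝ) ^ d ^ k := by
    refine (mul_le_mul_of_nonneg_right (pow_le_pow_of_le_one (by positivity)
      (pow_le_one₀ hr0.le hα1.le) hMN) (by positivity)).trans ?_
    rw [hP, ← pow_mul, ← pow_mul,
      show d ^ k * (s * N) = s * (N * d ^ k) by ring,
      show N * E₂ * d ^ k * (2 * h) = 2 * h * E₂ * (N * d ^ k) by ring, pow_mul r, pow_mul W,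
      ← mul_pow]
    exact (pow_le_pow_left₀ (by positivity) hs _).trans (pow_le_pow_of_le_one (by norm_num)
      (by norm_num) (Nat.le_mul_of_pos_left _ hN1))
  have : (1 : ℝ) ≤ Bk * Q ^ (2 * h) * (1 / 2 : ℝ) ^ d ^ k := by
    refine hmain.trans ?_
    rw [show P * (Bk * (r ^ d ^ k) ^ M) * (P * (Q * P)) ^ (h - 1) =
      Bk * ((r ^ d ^ k) ^ M * (P * (P * (Q * P)) ^ (h - 1))) by ring, mul_assoc Bk]
    refine mul_le_mul_of_nonneg_left ?_ hBk0
    refine (mul_le_mul_of_nonneg_left hP2 (by positivity)).trans ?_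
    rw [← mul_assoc, mul_comm (Q ^ (2 * h))]
    exact mul_le_mul_of_nonneg_right hfinal (by positivity)
  rw [show B * Γ ^ ee * Q ^ (2 * h) * ((Γ ^ ee) ^ k * (1 / 2 : ℝ) ^ d ^ k) =
    Bk * Q ^ (2 * h) * (1 / 2 : ℝ) ^ d ^ k by
      rw [hBk, ← pow_mul Γ ee, pow_succ Γ k, mul_pow, ← pow_mul Γ k, mul_comm k ee]; ring] at hk1
  linarith

/-- **Loxton–van der Poorten, with multipliers and rational right sides.** -/
theorem algebraicIndependent_values (ψ : K →+* ℂ) (c : Fin n → ℕ → K) {f : Fin n → ℂ → ℂ}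
    (hf : ∀ i, Rep ψ (PowerSeries.mk (c i)) (f i)) {d : ℕ} (hd : 2 ≤ d) (a : Fin n → K)
    (ha : ∀ i, a i ≠ 0) (u v : Fin n → Polynomial K)
    (heq : ∀ i, ∀ z : ℂ, ‖z‖ < 1 → ((v i).map ψ).eval z * f i (z ^ d) =
      ((v i).map ψ).eval z * (ψ (a i) * f i z) + ((u i).map ψ).eval z)
    (hb : ∀ (t : ℂ) (g : Fin n → ℂ) (q : RatFunc ℂ), (∀ i, g i ≠ 0 → ψ (a i) = t) →
      frob (by omega : 0 < d) q - RatFunc.C t * q = ∑ i, RatFunc.C (g i) *
        (algebraMap (Polynomial ℂ) (RatFunc ℂ) ((u i).map ψ) /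
          algebraMap _ _ ((v i).map ψ)) → g = 0)
    {α : ℂ} (hα : IsAlgebraic ℚ α) (hα0 : α ≠ 0) (hα1 : ‖α‖ < 1)
    (hv : ∀ i k, ((v i).map ψ).eval (α ^ d ^ k) ≠ 0) :
    AlgebraicIndependent ℚ fun i => f i α := by
  rw [algebraicIndependent_iff]
  intro R hR
  by_contra hR0
  set F := ψ.toRatAlgHom.fieldRange ⊔ IntermediateField.adjoin ℚ ({α} : Set ℂ)
  haveI : FiniteDimensional ℚ ψ.toRatAlgHom.fieldRange :=
    ψ.toRatAlgHom.toLinearMap.finiteDimensional_range
  haveI : FiniteDimensional ℚ (IntermediateField.adjoin ℚ ({α} : Set ℂ)) :=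
    IntermediateField.finiteDimensional_adjoin fun z hz => by
      rw [Set.mem_singleton_iff] at hz
      exact hz ▸ hα.isIntegral
  haveI : FiniteDimensional ℚ F := IntermediateField.finiteDimensional_sup _ _
  haveI : NumberField F := { }
  let ι : K →+* F := (ψ.toRatAlgHom.codRestrict F.toSubalgebra fun x =>
    le_sup_left (a := ψ.toRatAlgHom.fieldRange) ⟨x, rfl⟩).toRingHom
  have hι : (F.val.toRingHom).comp ι = ψ := rfl
  have hαF : α ∈ F := le_sup_right (a := ψ.toRatAlgHom.fieldRange)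
    (IntermediateField.subset_adjoin ℚ _ rfl)
  refine false_of_value_relation F.val.toRingHom (fun i m => ι (c i m)) (f := f) (fun i => ?_) hd
    (fun i => Units.mk0 (ι (a i)) ((map_ne_zero ι).2 (ha i)))
    (fun i => (u i).map ι) (fun i => (v i).map ι) (fun i z hz => ?_) ?_ ⟨α, hαF⟩
    (fun h => hα0 (congrArg Subtype.val h)) hα1 (fun i k h => hv i k ?_)
    (R := MvPolynomial.map (algebraMap ℚ F) R) ?_ ?_
  · intro z hz
    simp only [PowerSeries.coeff_mk]
    have := hf i z hz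
    simp only [PowerSeries.coeff_mk] at this
    exact this
  · simp only [Polynomial.map_map, hι]
    exact heq i z hz
  · simp only [Polynomial.map_map, hι]
    exact fun t g q hg hq => hb t g q hg hq
  · have e := congrArg F.val.toRingHom h
    rw [map_zero, ← Polynomial.eval_map_apply, Polynomial.map_map, hι] at e
    exact e
  · exact fun h => hR0 (MvPolynomial.map_injective _ (algebraMap ℚ F).injective
      (by rw [h, map_zero]))
  · rw [MvPolynomial.eval₂_map, ← hR, MvPolynomial.aeval_def]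
    congr 1

end FA.MahlerTwist

end
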