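import Fermat.Agent.MahlerTwist.Values
import Mathlib.Topology.Algebra.InfiniteSum.Order

/-!
# Series with finitely many terms of each degree

Tools for the examples: power series given as sums over families, the convergence of
`∑ a ^ k z ^ (d ^ k)`, and the description of the solutions `q` of `q (z ^ d) - t q (z) = P / v`.
-/

set_option autoImplicit false

noncomputable section

namespace FA.MahlerTwist

open Finset
open Filter Topology
open FA.Mahler (Rep)

variable {K : Type*} [Field K] {ψ : K →+* ℂ}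

/-- A family with finitely many members of each exponent is a power series. -/
theorem rep_of_family {P : Type*} (e : P → ℕ) (S : ℕ → Finset P) (hS : ∀ m p, p ∈ S m ↔ e p = m)
    (w : P → K) (hw : ∀ z : ℂ, ‖z‖ < 1 → Summable fun p => ‖ψ (w p) * z ^ e p‖) :
    Rep ψ (PowerSeries.mk fun m => ∑ p ∈ S m, w p) fun z => ∑' p, ψ (w p) * z ^ e p := by
  intro z hz
  have hset : ∀ m, e ⁻¹' {m} = (S m : Set P) := fun m => by ext p; simp [hS]
  have key : ∀ g : P → ℂ, ∀ m, ∑' p : e ⁻¹' {m}, g p = ∑ p ∈ S m, g p := fun g m => by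
    rw [hset]
    exact (S m).tsum_subtype g
  have keyR : ∀ g : P → ℝ, ∀ m, ∑' p : e ⁻¹' {m}, g p = ∑ p ∈ S m, g p := fun g m => by
    rw [hset]
    exact (S m).tsum_subtype g
  have hterm : ∀ m, ψ (PowerSeries.coeff m (PowerSeries.mk fun m => ∑ p ∈ S m, w p)) * z ^ m =
      ∑ p ∈ S m, ψ (w p) * z ^ e p := fun m => by
    rw [PowerSeries.coeff_mk, map_sum, sum_mul]
    exact sum_congr rfl fun p hp => by rw [(hS m p).1 hp]
  refine ⟨?_, ?_⟩
  · refine ((hw z hz).hasSum.tsum_fiberwise e).summable.of_nonneg_of_le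
      (fun _ => norm_nonneg _) fun m => ?_
    rw [hterm]
    exact (norm_sum_le _ _).trans_eq (keyR (fun p => ‖ψ (w p) * z ^ e p‖) m).symm
  · exact (tsum_congr fun m =>
      (hterm m).trans (key (fun p => ψ (w p) * z ^ e p) m).symm).trans
        ((hw z hz).of_norm.hasSum.tsum_fiberwise e).tsum_eq

/-- `∑ a ^ k z ^ (d ^ k)` converges for every `a`. -/
theorem summable_pow_mul_pow_pow {d : ℕ} (hd : 2 ≤ d) {A r : ℝ} (hA : 0 ≤ A) (hr0 : 0 ≤ r)
    (hr1 : r < 1) : Summable fun k : ℕ => A ^ k * r ^ d ^ k := by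
  have h := tendsto_pow_mul_pow_pow hd hr0 hr1 (ρ := 2 * A) (by positivity)
  obtain ⟨C, hC⟩ := h.bddAbove_range
  refine ((summable_geometric_of_lt_one (by norm_num) (by norm_num : (1 : ℝ) / 2 < 1)).mul_left
    C).of_nonneg_of_le (fun k => by positivity) fun k => ?_
  calc A ^ k * r ^ d ^ k = (2 * A) ^ k * r ^ d ^ k * (1 / 2) ^ k := by
        rw [mul_right_comm, ← mul_pow, show 2 * A * (1 / 2) = A by ring]
    _ ≤ C * (1 / 2) ^ k := mul_le_mul_of_nonneg_right (hC ⟨k, rfl⟩) (by positivity)

open Polynomial in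
/-- The equation of a denominator of `q` with `q (z ^ d) - t q (z) = P / v`. -/
theorem frob_eq_div {d : ℕ} (hd : 0 < d) {t : ℂ} {q : RatFunc ℂ} {P v : ℂ[X]} (hv : v ≠ 0)
    (h : frob hd q - RatFunc.C t * q =
      algebraMap ℂ[X] (RatFunc ℂ) P / algebraMap ℂ[X] (RatFunc ℂ) v) :
    (expand ℂ d q.num * q.denom - C t * q.num * expand ℂ d q.denom) * v =
      P * (q.denom * expand ℂ d q.denom) ∧ expand ℂ d q.denom ∣ q.denom * v := by
  have hw : q.denom ≠ 0 := RatFunc.denom_ne_zero q
  have hw' : expand ℂ d q.denom ≠ 0 := fun e => hw (expand_injective hd (by rw [e, map_zero]))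
  have h1 : (expand ℂ d q.num * q.denom - C t * q.num * expand ℂ d q.denom) * v =
      P * (q.denom * expand ℂ d q.denom) := by
    refine RatFunc.algebraMap_injective ℂ ?_
    rw [← RatFunc.num_div_denom q, map_div₀, frob_algebraMap, frob_algebraMap,
      ← RatFunc.algebraMap_C] at h
    have e1 := RatFunc.algebraMap_ne_zero hw
    have e2 := RatFunc.algebraMap_ne_zero hw'
    have e3 := RatFunc.algebraMap_ne_zero hv
    field_simp at h
    simp only [map_mul, map_sub]
    linear_combination h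
  refine ⟨h1, ?_⟩
  have hcop : IsCoprime (expand ℂ d q.num) (expand ℂ d q.denom) :=
    (RatFunc.isCoprime_num_denom q).map (expand ℂ d).toRingHom
  refine hcop.symm.dvd_of_dvd_mul_left ⟨P * q.denom + C t * q.num * v, ?_⟩
  linear_combination h1

end FA.MahlerTwist

end
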