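import Fermat.Agent.MahlerIndependence.Auxiliary
import Mathlib.LinearAlgebra.Dimension.Constructions
import Mathlib.LinearAlgebra.FreeModule.Finite.Matrix
import Mathlib.LinearAlgebra.Basis.VectorSpace

/-!
# The auxiliary polynomial over an algebra of parameters

For a series `F` over a `K`-algebra `A` whose coefficients are polynomials of bounded degree in
finitely many `w`, with `F 0` regular, some `∑ P_h (z, w) F ^ h` with degrees at most `N` vanishes
at `z = 0` to an order `M` with `M / N` arbitrary, and `P₀ ≠ 0` in `A`. Only the dimensions of the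
spans of the monomials enter, so the `w` may satisfy any relations.
-/

set_option autoImplicit false
set_option linter.style.haveILetI false

noncomputable section

namespace FA.MahlerTwist

open Finset Module
open FA.Mahler (Rep rep_monomial)

variable {K : Type*} [Field K] {A : Type*} [CommRing A] [Algebra K A] {ι : Type*} [Fintype ι]
  (w : ι → A)

/-- The span of the monomials in `w` of degree at most `T` in each. -/
def boxSpan (T : ℕ) : Submodule K A :=
  Submodule.span K (Set.range fun v : ι → Fin (T + 1) => ∏ i, w i ^ (v i).val)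

variable {w} {T T' : ℕ}

theorem prod_mem_boxSpan {v : ι → ℕ} (hv : ∀ i, v i ≤ T) :
    ∏ i, w i ^ v i ∈ boxSpan (K := K) w T :=
  Submodule.subset_span ⟨fun i => ⟨v i, Nat.lt_succ_of_le (hv i)⟩, rfl⟩

theorem one_mem_boxSpan : (1 : A) ∈ boxSpan (K := K) w T := by
  simpa using prod_mem_boxSpan (K := K) (w := w) (v := fun _ => 0) fun _ => Nat.zero_le _

theorem algebraMap_mem_boxSpan (x : K) : algebraMap K A x ∈ boxSpan (K := K) w T := by
  rw [Algebra.algebraMap_eq_smul_one]
  exact Submodule.smul_mem _ x one_mem_boxSpan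

theorem self_mem_boxSpan (i : ι) : w i ∈ boxSpan (K := K) w 1 := by
  classical
  have h := prod_mem_boxSpan (K := K) (w := w) (T := 1) (v := fun j => if j = i then 1 else 0)
    fun j => by split_ifs <;> omega
  simpa [pow_ite, prod_ite_eq'] using h

theorem boxSpan_mono (h : T ≤ T') : boxSpan (K := K) w T ≤ boxSpan w T' :=
  Submodule.span_le.2 (Set.range_subset_iff.2 fun v =>
    prod_mem_boxSpan fun i => (Nat.lt_succ_iff.1 (v i).isLt).trans h)

theorem mul_mem_boxSpan {x y : A} (hx : x ∈ boxSpan (K := K) w T)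
    (hy : y ∈ boxSpan (K := K) w T') : x * y ∈ boxSpan (K := K) w (T + T') := by
  have h := Submodule.mul_mem_mul hx hy
  rw [boxSpan, boxSpan, Submodule.span_mul_span] at h
  refine Submodule.span_le.2 ?_ h
  rintro _ ⟨_, ⟨u, rfl⟩, _, ⟨v, rfl⟩, rfl⟩
  dsimp only
  rw [← prod_mul_distrib]
  simp only [← pow_add]
  exact prod_mem_boxSpan fun i =>
    add_le_add (Nat.lt_succ_iff.1 (u i).isLt) (Nat.lt_succ_iff.1 (v i).isLt)

instance finiteDimensional_boxSpan : FiniteDimensional K (boxSpan (K := K) w T) :=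
  FiniteDimensional.span_of_finite K (Set.finite_range _)

/-- The larger box consists of translates of the smaller one. -/
theorem finrank_boxSpan_le {L N : ℕ} (h : T + 1 ≤ L * (N + 1)) :
    finrank K (boxSpan (K := K) w T) ≤ L ^ Fintype.card ι * finrank K (boxSpan (K := K) w N) := by
  classical
  let Λ : ((ι → Fin L) → boxSpan (K := K) w N) →ₗ[K] A := ∑ q : ι → Fin L,
    (LinearMap.mulLeft K (∏ i, w i ^ ((q i).val * (N + 1)))).comp
      ((Submodule.subtype _).comp (LinearMap.proj q))
  have hle : boxSpan (K := K) w T ≤ LinearMap.range Λ := by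
    refine Submodule.span_le.2 (Set.range_subset_iff.2 fun v => ?_)
    let q : ι → Fin L := fun i => ⟨(v i).val / (N + 1),
      Nat.div_lt_of_lt_mul (by have := (v i).isLt; rw [mul_comm]; omega)⟩
    let x : boxSpan (K := K) w N := ⟨∏ i, w i ^ ((v i).val % (N + 1)), prod_mem_boxSpan fun i =>
      Nat.lt_succ_iff.1 (Nat.mod_lt _ (Nat.succ_pos N))⟩
    refine ⟨Pi.single q x, ?_⟩
    simp only [Λ, LinearMap.sum_apply, LinearMap.comp_apply, LinearMap.proj_apply,
      Submodule.subtype_apply, LinearMap.mulLeft_apply]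
    rw [sum_eq_single q (fun q' _ hq' => by simp [Pi.single_eq_of_ne hq'])
      (fun hq => absurd (mem_univ q) hq), Pi.single_eq_same, ← prod_mul_distrib]
    refine prod_congr rfl fun i _ => ?_
    rw [← pow_add, Nat.div_add_mod']
  refine (Submodule.finrank_mono hle).trans ((LinearMap.finrank_range_le Λ).trans ?_)
  rw [Module.finrank_pi_fintype]
  simp

section Series

variable (ψ : K →+* ℂ)

/-- A finite sum of products of a parameter of degree at most `T` and a series over `K`
converging on the unit disc. -/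
inductive Adm (w : ι → A) (T : ℕ) : PowerSeries A → Prop
  | term {x : A} {G : PowerSeries K} {g : ℂ → ℂ} : x ∈ boxSpan (K := K) w T →
      Rep ψ G g → Adm w T (PowerSeries.C x * PowerSeries.map (algebraMap K A) G)
  | add {E E' : PowerSeries A} : Adm w T E → Adm w T E' → Adm w T (E + E')

variable {ψ}

theorem rep_one : Rep ψ (1 : PowerSeries K) fun _ => 1 := fun z hz => by
  simpa [PowerSeries.monomial_zero_eq_C] using rep_monomial (ψ := ψ) 0 (1 : K) z hz

theorem adm_C {x : A} (hx : x ∈ boxSpan (K := K) w T) : Adm ψ w T (PowerSeries.C x) := by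
  simpa using Adm.term (ψ := ψ) hx rep_one

theorem adm_zero : Adm ψ w T 0 := by simpa using adm_C (ψ := ψ) (Submodule.zero_mem (boxSpan w T))

theorem adm_map {G : PowerSeries K} {g : ℂ → ℂ} (h : Rep ψ G g) :
    Adm ψ w T (PowerSeries.map (algebraMap K A) G) := by
  simpa using Adm.term (ψ := ψ) (w := w) (T := T) one_mem_boxSpan h

theorem adm_monomial (j : ℕ) {x : A} (hx : x ∈ boxSpan (K := K) w T) :
    Adm ψ w T (PowerSeries.monomial j x) := by
  have h := Adm.term (ψ := ψ) hx (rep_monomial j (1 : K))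
  rwa [show PowerSeries.C x * PowerSeries.map (algebraMap K A) (PowerSeries.monomial j 1) =
    PowerSeries.monomial j x by
      ext m
      rw [PowerSeries.coeff_C_mul, PowerSeries.coeff_map, PowerSeries.coeff_monomial,
        PowerSeries.coeff_monomial]
      split_ifs <;> simp] at h

theorem Adm.mono {E : PowerSeries A} (h : Adm ψ w T E) (hT : T ≤ T') : Adm ψ w T' E := by
  induction h with
  | term hx hg => exact .term (boxSpan_mono hT hx) hg
  | add _ _ h h' => exact h.add h'

theorem Adm.mul {E E' : PowerSeries A} (h : Adm ψ w T E) (h' : Adm ψ w T' E') :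
    Adm ψ w (T + T') (E * E') := by
  induction h with
  | add _ _ h₁ h₂ => rw [add_mul]; exact h₁.add h₂
  | @term x G g hx hg =>
    induction h' with
    | add _ _ h₁ h₂ => rw [mul_add]; exact h₁.add h₂
    | @term y H k hy hk =>
      rw [mul_mul_mul_comm, ← map_mul, ← map_mul]
      exact .term (mul_mem_boxSpan hx hy) (hg.mul hk)

theorem Adm.pow {E : PowerSeries A} (h : Adm ψ w T E) : ∀ i : ℕ, Adm ψ w (i * T) (E ^ i)
  | 0 => by rw [pow_zero, ← map_one PowerSeries.C]; exact adm_C one_mem_boxSpan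
  | i + 1 => by rw [pow_succ, add_mul, one_mul]; exact (h.pow i).mul h

theorem adm_sum {α : Type*} (s : Finset α) {E : α → PowerSeries A}
    (h : ∀ i ∈ s, Adm ψ w T (E i)) : Adm ψ w T (∑ i ∈ s, E i) :=
  Finset.sum_induction E (Adm ψ w T) (fun _ _ => Adm.add) adm_zero h

theorem Adm.neg {E : PowerSeries A} (h : Adm ψ w T E) : Adm ψ w T (-E) := by
  induction h with
  | @term x G g hx hg =>
    rw [← neg_mul, ← map_neg]
    exact .term (Submodule.neg_mem _ hx) hg
  | add _ _ h h' => rw [neg_add]; exact h.add h'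

theorem Adm.coeff_mem {E : PowerSeries A} (h : Adm ψ w T E) (m : ℕ) :
    PowerSeries.coeff m E ∈ boxSpan (K := K) w T := by
  induction h with
  | @term x G g hx hg =>
    rw [PowerSeries.coeff_C_mul, PowerSeries.coeff_map, mul_comm, ← Algebra.smul_def]
    exact Submodule.smul_mem _ _ hx
  | add _ _ h h' => rw [map_add]; exact Submodule.add_mem _ h h'

theorem Adm.rep_functional {E : PowerSeries A} (h : Adm ψ w T E) (φ : A →ₗ[K] K) :
    ∃ g, Rep ψ (PowerSeries.mk fun m => φ (PowerSeries.coeff m E)) g := by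
  induction h with
  | @term x G g hx hg =>
    refine ⟨_, (?_ : PowerSeries.monomial 0 (φ x) * G = _) ▸ (rep_monomial 0 (φ x)).mul hg⟩
    ext m
    rw [PowerSeries.coeff_mk, PowerSeries.monomial_zero_eq_C_apply, PowerSeries.coeff_C_mul,
      PowerSeries.coeff_C_mul, PowerSeries.coeff_map, mul_comm x, ← Algebra.smul_def, map_smul,
      smul_eq_mul, mul_comm]
  | add _ _ h h' =>
    obtain ⟨g, hg⟩ := h
    obtain ⟨g', hg'⟩ := h'
    refine ⟨fun z => g z + g' z, ?_⟩
    convert hg.add hg' using 1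
    ext m
    simp

theorem Adm.rep_eval {E : PowerSeries A} (h : Adm ψ w T E) (ev : A →+* ℂ)
    (hev : ∀ x, ev (algebraMap K A x) = ψ x) :
    ∃ g, Rep (RingHom.id ℂ) (PowerSeries.map ev E) g := by
  induction h with
  | @term x G g hx hg =>
    have h1 : Rep (RingHom.id ℂ) (PowerSeries.map ψ G) g := fun z hz => by simpa using hg z hz
    refine ⟨_, (?_ : PowerSeries.monomial 0 (ev x) * PowerSeries.map ψ G = _) ▸
      (rep_monomial 0 (ev x)).mul h1⟩
    ext m
    rw [PowerSeries.monomial_zero_eq_C_apply, PowerSeries.coeff_C_mul, PowerSeries.coeff_map,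
      PowerSeries.coeff_map, PowerSeries.coeff_C_mul, PowerSeries.coeff_map, map_mul, hev]
  | add _ _ h h' =>
    obtain ⟨g, hg⟩ := h
    obtain ⟨g', hg'⟩ := h'
    exact ⟨_, (map_add (PowerSeries.map ev) _ _).symm ▸ hg.add hg'⟩

/-- Values of parameters of degree at most `T`. -/
theorem exists_eval_bound {x : A} (hx : x ∈ boxSpan (K := K) w T) :
    ∃ B, 0 ≤ B ∧ ∀ ev : A →+* ℂ, (∀ y, ev (algebraMap K A y) = ψ y) → ∀ G : ℝ, 1 ≤ G →
      (∀ i, ‖ev (w i)‖ ≤ G) → ‖ev x‖ ≤ B * G ^ (Fintype.card ι * T) := by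
  induction hx using Submodule.span_induction with
  | mem x hx =>
    obtain ⟨v, rfl⟩ := hx
    refine ⟨1, zero_le_one, fun ev _ G hG hw => ?_⟩
    rw [one_mul, map_prod, norm_prod]
    calc ∏ i, ‖ev (w i ^ (v i).val)‖ ≤ ∏ _i : ι, G ^ T := prod_le_prod (fun i _ => norm_nonneg _)
          fun i _ => by
            rw [map_pow, norm_pow]
            exact (pow_le_pow_left₀ (norm_nonneg _) (hw i) _).trans
              (pow_le_pow_right₀ hG (Nat.lt_succ_iff.1 (v i).isLt))
      _ = G ^ (Fintype.card ι * T) := by rw [prod_const, card_univ, ← pow_mul, mul_comm]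
  | zero => exact ⟨0, le_rfl, fun ev _ G _ _ => by simp⟩
  | add x y _ _ hx hy =>
    obtain ⟨B, hB0, hB⟩ := hx
    obtain ⟨B', hB0', hB'⟩ := hy
    refine ⟨B + B', add_nonneg hB0 hB0', fun ev hev G hG hw => ?_⟩
    rw [map_add, add_mul]
    exact (norm_add_le _ _).trans (add_le_add (hB ev hev G hG hw) (hB' ev hev G hG hw))
  | smul c x _ hx =>
    obtain ⟨B, hB0, hB⟩ := hx
    refine ⟨‖ψ c‖ * B, by positivity, fun ev hev G hG hw => ?_⟩
    rw [Algebra.smul_def, map_mul, hev, norm_mul, mul_assoc]
    exact mul_le_mul_of_nonneg_left (hB ev hev G hG hw) (norm_nonneg _)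

/-- Vanishing at `0` gives small values. -/
theorem Adm.exists_bound {E : PowerSeries A} (h : Adm ψ w T E) {M : ℕ}
    (hlow : ∀ m < M, PowerSeries.coeff m E = 0) :
    ∃ B, 0 ≤ B ∧ ∀ ev : A →+* ℂ, (∀ y, ev (algebraMap K A y) = ψ y) → ∀ G : ℝ, 1 ≤ G →
      (∀ i, ‖ev (w i)‖ ≤ G) → ∀ z : ℂ, ‖z‖ ≤ 1 / 2 →
        ‖∑' m, ev (PowerSeries.coeff m E) * z ^ m‖ ≤
          B * G ^ (Fintype.card ι * T) * ‖z‖ ^ M := by
  set V := boxSpan (K := K) w T
  let bas := Module.finBasis K V
  choose φ hφ using fun l => LinearMap.exists_extend (bas.coord l)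
  choose g hg using fun l => h.rep_functional (φ l)
  choose B₁ hB₁0 hB₁ using fun l => exists_eval_bound (ψ := ψ) (w := w) (bas l).2
  choose B₂ hB₂0 hB₂ using fun l => FA.MahlerIndependence.exists_bound (hg l) (M := M)
    fun m hm => by rw [PowerSeries.coeff_mk, hlow m hm, map_zero]
  refine ⟨∑ l, B₁ l * B₂ l, sum_nonneg fun l _ => mul_nonneg (hB₁0 l) (hB₂0 l),
    fun ev hev G hG hw z hz => ?_⟩
  have hz1 : ‖z‖ < 1 := lt_of_le_of_lt hz (by norm_num)
  have hterm : ∀ m, ev (PowerSeries.coeff m E) * z ^ m =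
      ∑ l, ev (bas l : A) * (ψ (φ l (PowerSeries.coeff m E)) * z ^ m) := fun m => by
    have h1 := congrArg (Submodule.subtype V) (bas.sum_repr ⟨_, h.coeff_mem m⟩)
    have h2 : ∀ l, φ l (PowerSeries.coeff m E) = bas.repr ⟨_, h.coeff_mem m⟩ l := fun l => by
      rw [← bas.coord_apply, ← hφ l]
      rfl
    simp only [map_sum, map_smul, Submodule.subtype_apply] at h1
    conv_lhs => rw [← h1, map_sum, sum_mul]
    refine sum_congr rfl fun l _ => ?_
    rw [Algebra.smul_def, map_mul, hev, h2]
    ring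
  have hsum : ∀ l, Summable fun m => ψ (φ l (PowerSeries.coeff m E)) * z ^ m := fun l => by
    have := (hg l z hz1).1.of_norm
    simpa using this
  rw [tsum_congr hterm, Summable.tsum_finsetSum fun l _ => (hsum l).mul_left _]
  refine (norm_sum_le _ _).trans ?_
  rw [sum_mul, sum_mul]
  refine sum_le_sum fun l _ => ?_
  have h3 : ∑' m, ψ (φ l (PowerSeries.coeff m E)) * z ^ m = g l z := by
    simpa using (hg l z hz1).2
  rw [tsum_mul_left, h3, norm_mul, mul_right_comm (B₁ l), mul_assoc]
  exact mul_le_mul (hB₁ l ev hev G hG hw) (hB₂ l z hz) (norm_nonneg _)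
    (mul_nonneg (hB₁0 l) (by positivity))

/-- A regular constant term does not lower the order. -/
theorem coeff_eq_zero_of_mul {F E : PowerSeries A}
    (hF : IsLeftRegular (PowerSeries.constantCoeff F)) {M : ℕ}
    (h : ∀ m < M, PowerSeries.coeff m (F * E) = 0) : ∀ m < M, PowerSeries.coeff m E = 0 := by
  intro m
  induction m using Nat.strong_induction_on with
  | _ m ih =>
  intro hm
  have h1 := h m hm
  rw [PowerSeries.coeff_mul, sum_eq_single (0, m)] at h1
  · rw [PowerSeries.coeff_zero_eq_constantCoeff_apply] at h1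
    exact hF (h1.trans (mul_zero _).symm)
  · intro ij hij hne
    have h2 : ij.2 < m := by
      have := mem_antidiagonal.1 hij
      by_contra hc
      exact hne (Prod.ext (by simp only; omega) (by simp only; omega))
    rw [ih _ h2 (h2.trans hm), mul_zero]
  · simp

variable [NumberField K] [Nontrivial A] [DecidableEq ι]

/-- **The auxiliary polynomial.** -/
theorem exists_auxiliary {F : PowerSeries A} {D : ℕ} (hF : Adm ψ w D F)
    (hreg : IsLeftRegular (PowerSeries.constantCoeff F)) {s : ℕ} (hs : 2 ≤ s) :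
    ∃ (N M e : ℕ) (η : Fin (N + 1) → (ι → Fin (N + 1)) → K) (B : ℝ),
      1 ≤ N ∧ s * N ≤ M ∧ (∀ j v, IsIntegral ℤ (η j v)) ∧
      (∃ j, ∑ v, η j v • ∏ i, w i ^ (v i).val ≠ 0) ∧ 0 ≤ B ∧
      ∀ ev : A →+* ℂ, (∀ y, ev (algebraMap K A y) = ψ y) → ∀ G : ℝ, 1 ≤ G →
        (∀ i, ‖ev (w i)‖ ≤ G) → ∀ z : ℂ, ‖z‖ ≤ 1 / 2 →
          ∑' m, ev (PowerSeries.coeff m F) * z ^ m = 0 →
            ‖∑ j : Fin (N + 1), ∑ v, ψ (η j v) * (z ^ j.val * ∏ i, ev (w i) ^ (v i).val)‖ ≤
              B * G ^ e * ‖z‖ ^ M := by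
  classical
  set L := (D + 1) ^ Fintype.card ι
  have hL : 0 < L := by positivity
  obtain ⟨N, hN⟩ : ∃ N, N + 1 = L * s := ⟨L * s - 1, by
    have : 0 < L * s := by positivity
    omega⟩
  set M := L * s * s - 1 with hM
  have hN1 : 1 ≤ N := by nlinarith
  have hMN : s * N ≤ M := by
    have : s * (N + 1) = L * s * s := by rw [hN]; ring
    have : s * (N + 1) = s * N + s := by ring
    omega
  set T := (D + 1) * N
  let V := boxSpan (K := K) w N
  let W := boxSpan (K := K) w T
  let idx := Fin (N + 1) × Fin (N + 1)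
  let ser : (idx → V) → PowerSeries A := fun a =>
    ∑ t : idx, PowerSeries.monomial t.2.val (a t : A) * F ^ t.1.val
  have hadm : ∀ a, Adm ψ w T (ser a) := fun a => adm_sum _ fun t _ =>
    ((adm_monomial _ (a t).2).mul (hF.pow t.1.val)).mono (by
      have := Nat.mul_le_mul_right D (Nat.lt_succ_iff.1 t.1.isLt)
      simp only [T]
      nlinarith)
  let Φ : (idx → V) →ₗ[K] (Fin M → W) := LinearMap.pi fun m =>
    (∑ t : idx, (LinearMap.mulRight K
      (PowerSeries.coeff m.val (PowerSeries.monomial t.2.val (1 : A) * F ^ t.1.val))).comp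
        (V.subtype.comp (LinearMap.proj t))).codRestrict W fun a => by
      convert (hadm a).coeff_mem m.val using 1
      simp only [ser, map_sum, LinearMap.sum_apply, LinearMap.comp_apply, LinearMap.proj_apply,
        Submodule.subtype_apply, LinearMap.mulRight_apply]
      refine sum_congr rfl fun t _ => ?_
      rw [← PowerSeries.coeff_C_mul, ← mul_assoc]
      congr 2
      ext u
      rw [PowerSeries.coeff_C_mul, PowerSeries.coeff_monomial, PowerSeries.coeff_monomial]
      split_ifs <;> simp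
  obtain ⟨a, ha, ha0⟩ : ∃ a, Φ a = 0 ∧ a ≠ 0 := by
    by_contra hc
    push Not at hc
    have hinj : Function.Injective Φ := LinearMap.ker_eq_bot.mp
      ((Submodule.eq_bot_iff _).mpr fun e he => hc e he)
    have hle := LinearMap.finrank_le_finrank_of_injective hinj
    rw [Module.finrank_pi_fintype, Module.finrank_pi_fintype] at hle
    simp only [sum_const, card_univ, Fintype.card_prod, Fintype.card_fin, idx, smul_eq_mul] at hle
    have hr : 0 < finrank K V := by
      rw [Module.finrank_pos_iff]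
      exact ⟨⟨⟨1, one_mem_boxSpan⟩, 0, fun h => one_ne_zero (congrArg Subtype.val h)⟩⟩
    have hT : finrank K W ≤ L * finrank K V :=
      finrank_boxSpan_le (by simp only [T]; nlinarith)
    have hlt : M * L < (N + 1) * (N + 1) := by
      have h1 : M + 1 = L * s * s := by
        have : 0 < L * s * s := by positivity
        omega
      rw [hN]
      nlinarith
    have h2 : M * finrank K W < (N + 1) * (N + 1) * finrank K V :=
      calc M * finrank K W ≤ M * (L * finrank K V) := Nat.mul_le_mul_left _ hT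
        _ = M * L * finrank K V := by ring
        _ < _ := Nat.mul_lt_mul_of_pos_right hlt hr
    omega
  have hlow : ∀ m < M, PowerSeries.coeff m (ser a) = 0 := fun m hm => by
    have h1 := congrArg Subtype.val (congrFun ha ⟨m, hm⟩)
    simp only [Φ, LinearMap.pi_apply, LinearMap.codRestrict_apply, LinearMap.sum_apply,
      LinearMap.comp_apply, LinearMap.proj_apply, Submodule.subtype_apply,
      LinearMap.mulRight_apply, Pi.zero_apply, ZeroMemClass.coe_zero] at h1
    refine Eq.trans ?_ h1
    simp only [ser, map_sum]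
    refine sum_congr rfl fun t _ => ?_
    rw [← PowerSeries.coeff_C_mul, ← mul_assoc]
    congr 2
    ext u
    rw [PowerSeries.coeff_C_mul, PowerSeries.coeff_monomial, PowerSeries.coeff_monomial]
    split_ifs <;> simp
  -- the least exponent that occurs
  let P : ℕ → PowerSeries A := fun h => if hh : h < N + 1 then
    ∑ j : Fin (N + 1), PowerSeries.monomial j.val (a (⟨h, hh⟩, j) : A) else 0
  have hser : ser a = ∑ h ∈ range (N + 1), P h * F ^ h := by
    rw [← Fin.sum_univ_eq_sum_range (fun h => P h * F ^ h)]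
    simp only [ser, idx, Fintype.sum_prod_type]
    refine sum_congr rfl fun h _ => ?_
    simp only [P, dif_pos h.isLt, sum_mul]
  obtain ⟨t, ht⟩ := Function.ne_iff.1 ha0
  have hex : ∃ h, ∃ hh : h < N + 1, ∃ j, a (⟨h, hh⟩, j) ≠ 0 := ⟨t.1.val, t.1.isLt, t.2, ht⟩
  set h₀ := Nat.find hex
  obtain ⟨hh₀, j₀, hj₀⟩ := Nat.find_spec hex
  set E := ∑ k ∈ range (N + 1 - h₀), P (h₀ + k) * F ^ k with hE
  have hsE : ser a = F ^ h₀ * E := by
    have hPlow : ∀ h < h₀, P h = 0 := fun h hh => by
      have hmin := Nat.find_min hex hh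
      push Not at hmin
      simp only [P, dif_pos (hh.trans hh₀)]
      exact sum_eq_zero fun j _ => by rw [hmin (hh.trans hh₀) j, ZeroMemClass.coe_zero, map_zero]
    rw [hser, show N + 1 = h₀ + (N + 1 - h₀) by omega, sum_range_add,
      sum_eq_zero fun h hh => by rw [hPlow h (mem_range.1 hh), zero_mul], zero_add, hE, mul_sum]
    refine sum_congr rfl fun k _ => ?_
    rw [pow_add]
    ring
  have hlow' : ∀ m < M, PowerSeries.coeff m E = 0 :=
    coeff_eq_zero_of_mul (by rw [map_pow]; exact hreg.pow h₀) fun m hm => hsE ▸ hlow m hm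
  have hPadm : ∀ h, Adm ψ w N (P h) := fun h => by
    simp only [P]
    split_ifs
    · exact adm_sum _ fun j _ => adm_monomial _ (a _).2
    · exact adm_zero
  have hEadm : Adm ψ w T E := adm_sum _ fun k hk => ((hPadm _).mul (hF.pow k)).mono (by
    have hk' : k ≤ N := by have := mem_range.1 hk; omega
    have := Nat.mul_le_mul_right D hk'
    simp only [T]
    nlinarith)
  obtain ⟨B, hB0, hB⟩ := hEadm.exists_bound hlow'
  -- integral coefficients
  choose η hη using fun j : Fin (N + 1) =>
    Submodule.mem_span_range_iff_exists_fun K |>.1 (a (⟨h₀, hh₀⟩, j)).2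
  haveI : Algebra.IsAlgebraic ℤ K :=
    (IsFractionRing.comap_isAlgebraic_iff (A := ℤ) (K := ℚ) (C := K)).2 inferInstance
  obtain ⟨Dn, hDn, hDint⟩ := Algebra.IsAlgebraic.exists_integral_multiples ℤ
    ((Finset.univ : Finset (Fin (N + 1) × (ι → Fin (N + 1)))).image fun t => η t.1 t.2)
  refine ⟨N, M, Fintype.card ι * T, fun j v => (Dn : K) * η j v, |(Dn : ℝ)| * B, hN1, hMN,
    fun j v => ?_, ⟨j₀, fun h => hj₀ ?_⟩, mul_nonneg (abs_nonneg _) hB0,
    fun ev hev G hG hw z hz hFz => ?_⟩
  · have := hDint (η j v) (mem_image.2 ⟨(j, v), mem_univ _, rfl⟩)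
    simpa [mem_integralClosure_iff, zsmul_eq_mul] using this
  · refine Subtype.ext ?_
    simp only [mul_smul, ← smul_sum, hη] at h
    exact (smul_eq_zero.1 h).resolve_left (by exact_mod_cast hDn)
  have hz1 : ‖z‖ < 1 := lt_of_le_of_lt hz (by norm_num)
  obtain ⟨g, hg⟩ := hF.rep_eval ev hev
  have hg0 : g z = 0 := by
    rw [← (hg z hz1).2]
    simpa using hFz
  have hE1 : Rep (RingHom.id ℂ) (PowerSeries.map ev E) fun u => ∑ k ∈ range (N + 1 - h₀),
      (∑ j : Fin (N + 1), ev (if hh : h₀ + k < N + 1 then (a (⟨h₀ + k, hh⟩, j) : A) else 0) *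
        u ^ j.val) * g u ^ k := by
    rw [hE, map_sum]
    refine Rep.sum _ fun k _ => ?_
    rw [map_mul, map_pow]
    refine Rep.mul ?_ (hg.pow k)
    rw [show PowerSeries.map ev (P (h₀ + k)) = ∑ j : Fin (N + 1), PowerSeries.monomial j.val
        (ev (if hh : h₀ + k < N + 1 then (a (⟨h₀ + k, hh⟩, j) : A) else 0)) by
      simp only [P]
      split_ifs with hh
      · rw [map_sum]
        refine sum_congr rfl fun j _ => ?_
        ext m
        rw [PowerSeries.coeff_map, PowerSeries.coeff_monomial, PowerSeries.coeff_monomial]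
        split_ifs <;> simp
      · simp]
    exact Rep.sum _ fun j _ => rep_monomial j.val _
  have hval := (hE1 z hz1).2
  beta_reduce at hval
  rw [sum_eq_single 0 (fun k _ hk => by rw [hg0, zero_pow hk, mul_zero])
    (fun h => absurd (mem_range.2 (by omega)) h)] at hval
  simp only [add_zero, pow_zero, mul_one, PowerSeries.coeff_map,
    RingHom.id_apply] at hval
  have hmain := hB ev hev G hG hw z hz
  rw [hval] at hmain
  rw [show ∑ j : Fin (N + 1), ∑ v, ψ ((Dn : K) * η j v) * (z ^ j.val * ∏ i, ev (w i) ^ (v i).val) =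
      (Dn : ℂ) * ∑ j : Fin (N + 1), ev (a (⟨h₀, hh₀⟩, j) : A) * z ^ j.val by
    rw [mul_sum]
    refine sum_congr rfl fun j _ => ?_
    rw [← hη j, map_sum, sum_mul, mul_sum]
    refine sum_congr rfl fun v _ => ?_
    rw [map_mul, map_intCast, Algebra.smul_def, map_mul, hev, map_prod]
    simp only [map_pow]
    ring, norm_mul, Complex.norm_intCast, mul_assoc |(Dn : ℝ)|, mul_assoc |(Dn : ℝ)|]
  refine mul_le_mul_of_nonneg_left (le_of_eq_of_le (congrArg _ (sum_congr rfl fun j _ => ?_))
    hmain) (abs_nonneg _)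
  rw [dif_pos hh₀]

end Series

end FA.MahlerTwist

end
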