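import Fermat.Agent.MahlerTwist.Series
import Mathlib.NumberTheory.Real.GoldenRatio
import Mathlib.RingTheory.AlgebraicIndependent.Basic

/-!
# Reciprocal sums of Fibonacci numbers at geometric indices

With `φ` the golden ratio and `s = (-1) ^ d`, `∑ a ^ k / F (d ^ (k + 1))` is the value at `φ ^ -d`
of `√5 ∑ a ^ k z ^ (d ^ k) / (1 - s z ^ (2 d ^ k))`, a solution of
`f (z ^ d) = a⁻¹ f (z) - a⁻¹ z / (1 - s z ^ 2)`. Unless `d = 2`, `a = 1`, the right side is not
`q (z ^ d) - a⁻¹ q (z)`; for `d = 2`, `a = 1` it is, and the sum is `(7 - √5) / 2`.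
-/

set_option autoImplicit false
set_option linter.style.haveILetI false

noncomputable section

namespace FA.MahlerTwist

open Finset
open FA.Mahler (Rep)

variable {d : ℕ}

/-- `∑ a ^ k s ^ i z ^ ((2 i + 1) d ^ k)`. -/
def fibSer (d : ℕ) (a s z : ℂ) : ℂ :=
  ∑' p : ℕ × ℕ, a ^ p.1 * s ^ p.2 * z ^ ((2 * p.2 + 1) * d ^ p.1)

theorem summable_fibSer (hd : 2 ≤ d) (a : ℂ) {s z : ℂ} (hs : ‖s‖ ≤ 1) (hz : ‖z‖ < 1) :
    Summable fun p : ℕ × ℕ => ‖a ^ p.1 * s ^ p.2 * z ^ ((2 * p.2 + 1) * d ^ p.1)‖ := by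
  refine ((summable_pow_mul_pow_pow hd (norm_nonneg a) (norm_nonneg z) hz).mul_of_nonneg
    (summable_geometric_of_lt_one (norm_nonneg z) hz) (fun k => by positivity)
    fun i => by positivity).of_nonneg_of_le (fun _ => norm_nonneg _) fun p => ?_
  simp only [norm_mul, norm_pow]
  rw [mul_assoc _ (‖z‖ ^ d ^ p.1), ← pow_add, mul_assoc]
  refine mul_le_mul_of_nonneg_left ?_ (by positivity)
  refine (mul_le_of_le_one_left (by positivity) (pow_le_one₀ (norm_nonneg s) hs)).trans
    (pow_le_pow_of_le_one (norm_nonneg z) hz.le ?_)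
  have : 1 ≤ d ^ p.1 := Nat.one_le_pow _ _ (by omega)
  nlinarith

theorem fibSer_eq_tsum (hd : 2 ≤ d) (a : ℂ) {s z : ℂ} (hs : ‖s‖ ≤ 1) (hz : ‖z‖ < 1) :
    (Summable fun k : ℕ => a ^ k * z ^ d ^ k / (1 - s * z ^ (2 * d ^ k))) ∧
      fibSer d a s z = ∑' k : ℕ, a ^ k * z ^ d ^ k / (1 - s * z ^ (2 * d ^ k)) := by
  have hsum := (summable_fibSer hd a hs hz).of_norm
  have hin : ∀ k, HasSum (fun i => a ^ k * s ^ i * z ^ ((2 * i + 1) * d ^ k))
      (a ^ k * z ^ d ^ k / (1 - s * z ^ (2 * d ^ k))) := fun k => by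
    have h1 : ‖s * z ^ (2 * d ^ k)‖ < 1 := by
      rw [norm_mul, norm_pow]
      exact lt_of_le_of_lt (mul_le_of_le_one_left (by positivity) hs)
        (pow_lt_one₀ (norm_nonneg z) hz (by have := Nat.one_le_pow k d (by omega); omega))
    have h2 := (hasSum_geometric_of_norm_lt_one h1).mul_left (a ^ k * z ^ d ^ k)
    rw [← div_eq_mul_inv] at h2
    refine h2.congr_fun fun i => ?_
    rw [mul_pow, ← pow_mul, show (2 * i + 1) * d ^ k = d ^ k + 2 * d ^ k * i by ring, pow_add]
    ring
  have h := hsum.hasSum.prod_fiberwise hin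
  exact ⟨h.summable, h.tsum_eq.symm⟩

theorem fibSer_eq (hd : 2 ≤ d) {a s z : ℂ} (ha : a ≠ 0) (hs : ‖s‖ ≤ 1) (hz : ‖z‖ < 1) :
    (1 - s * z ^ 2) * fibSer d a s (z ^ d) =
      (1 - s * z ^ 2) * (a⁻¹ * fibSer d a s z) - a⁻¹ * z := by
  have hz' : ‖z ^ d‖ < 1 := by
    rw [norm_pow]
    exact pow_lt_one₀ (norm_nonneg z) hz (by omega)
  have h0 : 1 - s * z ^ 2 ≠ 0 := fun h => by
    have h1 : ‖s * z ^ 2‖ < 1 := by
      rw [norm_mul, norm_pow]
      exact lt_of_le_of_lt (mul_le_of_le_one_left (by positivity) hs)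
        (pow_lt_one₀ (norm_nonneg z) hz two_ne_zero)
    rw [← sub_eq_zero.1 h, norm_one] at h1
    exact lt_irrefl _ h1
  rw [(fibSer_eq_tsum hd a hs hz).2, (fibSer_eq_tsum hd a hs hz').2,
    (fibSer_eq_tsum hd a hs hz).1.tsum_eq_zero_add]
  rw [show ∑' k : ℕ, a ^ (k + 1) * z ^ d ^ (k + 1) / (1 - s * z ^ (2 * d ^ (k + 1))) =
      a * ∑' k : ℕ, a ^ k * (z ^ d) ^ d ^ k / (1 - s * (z ^ d) ^ (2 * d ^ k)) by
    rw [← tsum_mul_left]
    refine tsum_congr fun k => ?_
    rw [← pow_mul, ← pow_mul, ← pow_succ', show d * (2 * d ^ k) = 2 * d ^ (k + 1) by ring]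
    ring]
  simp only [pow_zero, one_mul, mul_one, pow_one]
  field_simp
  ring

open Polynomial in
/-- **`z / (1 - s z ^ 2)` is not `q (z ^ d) - t q (z)`.** -/
theorem fib_criterion (hd : 2 ≤ d) {t s G : ℂ} (hs : s = (-1) ^ d) (hdt : d = 2 → t ≠ 1)
    (q : RatFunc ℂ) (h : frob (by omega : 0 < d) q - RatFunc.C t * q =
      algebraMap ℂ[X] (RatFunc ℂ) (C G * X) / algebraMap ℂ[X] (RatFunc ℂ) (1 - C s * X ^ 2)) :
    G = 0 := by
  have hd0 : 0 < d := by omega
  have hs0 : s ≠ 0 := hs ▸ pow_ne_zero _ (by norm_num)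
  have hvd : (1 - C s * X ^ 2 : ℂ[X]).natDegree = 2 := by
    rw [sub_eq_neg_add, ← neg_mul, ← C_neg, ← C_1, natDegree_add_C,
      natDegree_C_mul_X_pow 2 (-s) (neg_ne_zero.2 hs0)]
  have hv : (1 - C s * X ^ 2 : ℂ[X]) ≠ 0 := fun e => by simp [e] at hvd
  obtain ⟨h1, h2⟩ := frob_eq_div hd0 hv h
  set w := q.denom
  set p := q.num
  have hw : w ≠ 0 := RatFunc.denom_ne_zero q
  have hwm : w.Monic := RatFunc.monic_denom q
  have hdeg : w.natDegree * d ≤ w.natDegree + 2 := by
    have := natDegree_le_of_dvd h2 (mul_ne_zero hw hv)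
    rwa [natDegree_expand, natDegree_mul hw hv, hvd] at this
  rcases Nat.eq_zero_or_pos w.natDegree with hm | hm
  · have hw1 : w = 1 := hwm.natDegree_eq_zero.1 hm
    rw [hw1] at h1
    simp only [map_one, mul_one] at h1
    by_contra hG
    have hne : expand ℂ d p - C t * p ≠ 0 := fun e => hG (by
      rw [e, zero_mul] at h1
      simpa using congrArg (fun P => coeff P 1) h1.symm)
    have := congrArg natDegree h1
    rw [natDegree_mul hne hv, hvd, natDegree_C_mul_X G hG] at this
    omega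
  obtain ⟨cf, hcf⟩ := h2
  have hcfd : w.natDegree * d + cf.natDegree = w.natDegree + 2 := by
    have hcf0 : cf ≠ 0 := fun e => mul_ne_zero hw hv (by rw [hcf, e, mul_zero])
    have hwd0 : expand ℂ d w ≠ 0 := fun e => hw (expand_injective hd0 (by rw [e, map_zero]))
    have := congrArg natDegree hcf
    rw [natDegree_mul hw hv, natDegree_mul hwd0 hcf0, natDegree_expand, hvd] at this
    exact this.symm
  have hcoef : ∀ m, (w * (1 - C s * X ^ 2)).coeff m = (expand ℂ d w * cf).coeff m :=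
    fun m => by rw [hcf]
  have hd3 : d = 2 ∨ d = 3 ∧ w.natDegree = 1 := by
    rcases eq_or_ne d 2 with rfl | hd2
    · exact Or.inl rfl
    · refine Or.inr ?_
      have h3 : 3 * w.natDegree ≤ w.natDegree * d := by
        rw [mul_comm 3]
        exact Nat.mul_le_mul_left _ (by omega)
      have hm1 : w.natDegree = 1 := by omega
      rw [hm1] at hdeg
      exact ⟨by omega, hm1⟩
  rcases hd3 with rfl | ⟨rfl, hm1⟩
  · -- `d = 2`
    rw [neg_one_sq] at hs
    subst hs
    have hm2 : w.natDegree ≤ 2 := by omega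
    have hw' := w.as_sum_range_C_mul_X_pow' (Nat.lt_succ_of_le hm2)
    have hcf' := cf.as_sum_range_C_mul_X_pow' (show cf.natDegree < 3 by omega)
    simp only [sum_range_succ, sum_range_zero, zero_add, pow_zero, mul_one, pow_one] at hw' hcf'
    set w0 := w.coeff 0
    set w1 := w.coeff 1
    set w2 := w.coeff 2
    set c0 := cf.coeff 0
    set c1 := cf.coeff 1
    set c2 := cf.coeff 2
    have hexp : expand ℂ 2 w = C w0 + C w1 * X ^ 2 + C w2 * X ^ 4 := by
      conv_lhs => rw [hw']
      simp only [map_add, map_mul, map_pow, expand_C, expand_X]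
      ring
    rcases (show w.natDegree = 1 ∨ w.natDegree = 2 by omega) with hm' | hm'
    · have hc2 : c2 = 0 := coeff_eq_zero_of_natDegree_lt (by omega)
      have hw2 : w2 = 0 := coeff_eq_zero_of_natDegree_lt (by omega)
      have hw1 : w1 = 1 := by
        rw [show w1 = w.coeff 1 from rfl, ← hm']
        exact hwm.coeff_natDegree
      have e : (C w0 + X) * (1 - C 1 * X ^ 2) = (C w0 + X ^ 2) * (C c0 + C c1 * X : ℂ[X]) := by
        have h3 := hcf
        rw [hexp, hw', hcf', hw1, hw2, hc2] at h3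
        simpa using h3
      have e1 := congrArg (fun P => coeff P 1) e
      have e2 := congrArg (fun P => coeff P 2) e
      have e3 := congrArg (fun P => coeff P 3) e
      simp only [mul_add, add_mul, mul_sub, map_one, one_mul, mul_one, ← mul_assoc, ← map_mul,
        ← pow_succ', mul_comm (X ^ 2 : ℂ[X]) (C _), coeff_add,
        coeff_sub, coeff_C_mul, coeff_X_pow, coeff_X, coeff_C] at e1 e2 e3
      norm_num at e1 e2 e3
      have hw0 : w0 = -1 := by linear_combination e1 - w0 * e3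
      have hwX : w = X - 1 := by rw [hw', hw1, hw2, hw0]; simp; ring
      rw [hwX] at h1
      simp only [map_sub, map_one, expand_X] at h1
      have h3 : expand ℂ 2 p - C t * p * (X + 1) = -(C G * X) := by
        refine mul_left_cancel₀ (show (X - 1) * (1 - X ^ 2) ≠ (0 : ℂ[X]) from fun e0 => ?_) ?_
        · have := congrArg (fun P => coeff P 0) e0
          simp at this
        · linear_combination h1
      have hp1 : p.natDegree ≤ 1 := by
        by_contra hp
        have := congrArg (fun P => coeff P (p.natDegree * 2)) h3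
        simp only [mul_add, mul_one, coeff_sub, coeff_add, coeff_neg, coeff_C_mul,
          mul_assoc (C t) p X, coeff_expand_mul (show 0 < 2 by norm_num), coeff_X] at this
        obtain ⟨m, hm''⟩ : ∃ m, p.natDegree * 2 = m + 1 := ⟨p.natDegree * 2 - 1, by omega⟩
        rw [hm'', coeff_mul_X, coeff_eq_zero_of_natDegree_lt (show p.natDegree < m by omega),
          coeff_eq_zero_of_natDegree_lt (show p.natDegree < m + 1 by omega),
          if_neg (show ¬(1 = m + 1) by omega)] at this
        simp only [mul_zero, add_zero, sub_zero, neg_zero] at this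
        exact leadingCoeff_ne_zero.2 (fun e0 => hp (by simp [e0])) this
      obtain ⟨u, v', hp'⟩ := exists_eq_X_add_C_of_natDegree_le_one hp1
      rw [hp'] at h3
      simp only [map_add, map_mul, expand_C, expand_X] at h3
      have f0 := congrArg (fun P => coeff P 0) h3
      have f1 := congrArg (fun P => coeff P 1) h3
      have f2 := congrArg (fun P => coeff P 2) h3
      simp only [mul_add, add_mul, ← mul_assoc, ← map_mul, mul_one, mul_assoc (C (t * u)) X X,
        ← pow_two, coeff_add, coeff_sub, coeff_neg, coeff_C_mul, coeff_X_pow, coeff_X,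
        coeff_C] at f0 f1 f2
      norm_num at f0 f1 f2
      have ht : 1 - t ≠ 0 := sub_ne_zero.2 (hdt rfl).symm
      have hu : u = 0 :=
        (mul_eq_zero.1 (show (1 - t) * u = 0 by linear_combination f2)).resolve_left ht
      have hv0 : v' = 0 :=
        (mul_eq_zero.1 (show (1 - t) * v' = 0 by linear_combination f0)).resolve_left ht
      rw [hu, hv0] at f1
      simpa using f1.symm
    · exfalso
      have hc1 : c1 = 0 := coeff_eq_zero_of_natDegree_lt (by omega)
      have hc2 : c2 = 0 := coeff_eq_zero_of_natDegree_lt (by omega)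
      have hw2 : w2 = 1 := by
        rw [show w2 = w.coeff 2 from rfl, ← hm']
        exact hwm.coeff_natDegree
      have e : (C w0 + C w1 * X + X ^ 2) * (1 - C 1 * X ^ 2) =
          (C w0 + C w1 * X ^ 2 + X ^ 4) * (C c0 : ℂ[X]) := by
        have h3 := hcf
        rw [hexp, hw', hcf', hc1, hc2, hw2] at h3
        simpa using h3
      have e2 := congrArg (fun P => coeff P 2) e
      have e3 := congrArg (fun P => coeff P 3) e
      have e4 := congrArg (fun P => coeff P 4) e
      have e1 := congrArg (fun P => coeff P 1) e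
      simp only [add_mul, mul_sub, map_one, one_mul, mul_one, mul_assoc (C w1) X, ← pow_succ',
        ← pow_add, ← map_mul, mul_comm (X ^ 4 : ℂ[X]) (C _), mul_assoc (C w1) (X ^ 2) (C c0),
        mul_comm (X ^ 2 : ℂ[X]) (C c0), ← mul_assoc (C w1) (C c0), coeff_add, coeff_sub,
        coeff_C_mul, coeff_X_pow, coeff_X, coeff_C] at e1 e2 e3 e4
      norm_num at e1 e2 e3 e4
      have hw1 : w1 = 0 := by linear_combination e3
      have hc : c0 = -1 := by linear_combination -e4
      have e0 := congrArg (fun P => coeff P 0) e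
      simp at e0
      rw [hc] at e0
      have hw0 : w0 = 0 := by linear_combination e0 / 2
      rw [hw1, hw0] at e2
      norm_num at e2
  · -- `d = 3`
    exfalso
    have hs1 : s = -1 := by rw [hs]; norm_num
    subst hs1
    have hw' := w.as_sum_range_C_mul_X_pow' (show w.natDegree < 2 by omega)
    simp only [sum_range_succ, sum_range_zero, zero_add, pow_zero, mul_one, pow_one] at hw'
    have hw1 : w.coeff 1 = 1 := by rw [← hm1]; exact hwm.coeff_natDegree
    obtain ⟨k, hk⟩ := natDegree_eq_zero.1 (show cf.natDegree = 0 by omega)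
    set w0 := w.coeff 0
    rw [hw1, map_one, one_mul] at hw'
    have e : (C w0 + X) * (1 + X ^ 2) = (C w0 + X ^ 3) * (C k : ℂ[X]) := by
      have h3 := hcf
      rw [← hk, hw', map_add, expand_C, expand_X] at h3
      simpa using h3
    have e1 := congrArg (fun P => coeff P 1) e
    simp [mul_add, add_mul, coeff_X, ← pow_succ'] at e1

/-- `√5`. -/
def sqrtFive : ℂ := ((√5 : ℝ) : ℂ)

/-- `φ⁻¹` in `ℂ`. -/
def invGold : ℂ := ((Real.goldenRatio⁻¹ : ℝ) : ℂ)

theorem invGold_ne_zero : invGold ≠ 0 :=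
  Complex.ofReal_ne_zero.2 (inv_ne_zero Real.goldenRatio_ne_zero)

theorem norm_invGold_lt : ‖invGold‖ < 1 := by
  rw [invGold, Complex.norm_real, Real.norm_eq_abs,
    abs_of_pos (inv_pos.2 Real.goldenRatio_pos)]
  exact inv_lt_one_of_one_lt₀ Real.one_lt_goldenRatio

theorem one_div_fib {m : ℕ} (hm : 0 < m) : (1 : ℂ) / (Nat.fib m : ℂ) =
    sqrtFive * invGold ^ m / (1 - (-1) ^ m * invGold ^ (2 * m)) := by
  have hφ : (Real.goldenRatio : ℂ) ≠ 0 := Complex.ofReal_ne_zero.2 Real.goldenRatio_ne_zero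
  have h5 : sqrtFive ≠ 0 := Complex.ofReal_ne_zero.2 (by positivity)
  have hψ : ((Real.goldenConj : ℝ) : ℂ) = -invGold := by
    rw [invGold, Real.inv_goldenRatio]; push_cast; ring
  have hf : (Nat.fib m : ℂ) =
      ((Real.goldenRatio : ℂ) ^ m - (-invGold) ^ m) / sqrtFive := by
    rw [← hψ, sqrtFive, ← Complex.ofReal_natCast, Real.coe_fib_eq]
    push_cast
    rfl
  have hi : invGold = (Real.goldenRatio : ℂ)⁻¹ := by rw [invGold, Complex.ofReal_inv]
  have hfib : (Nat.fib m : ℂ) ≠ 0 := Nat.cast_ne_zero.2 (Nat.fib_pos.2 hm).ne'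
  rw [hf] at hfib ⊢
  have key : (Real.goldenRatio : ℂ) ^ m - (-invGold) ^ m =
      (Real.goldenRatio : ℂ) ^ m * (1 - (-1) ^ m * invGold ^ (2 * m)) := by
    rw [neg_pow invGold, two_mul, pow_add, mul_sub, mul_one]
    have : (Real.goldenRatio : ℂ) ^ m * invGold ^ m = 1 := by
      rw [← mul_pow, hi, mul_inv_cancel₀ hφ, one_pow]
    linear_combination ((-1) ^ m * invGold ^ m) * this
  rw [key] at hfib ⊢
  have h1 : (1 : ℂ) - (-1) ^ m * invGold ^ (2 * m) ≠ 0 :=
    (mul_ne_zero_iff.1 (div_ne_zero_iff.1 hfib).1).2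
  have : (Real.goldenRatio : ℂ) ^ m * invGold ^ m = 1 := by
    rw [← mul_pow, hi, mul_inv_cancel₀ hφ, one_pow]
  field_simp
  linear_combination -this

/-- The series at `φ ^ -d`. -/
theorem fib_sum_eq (hd : 2 ≤ d) (a : ℂ) :
    (Summable fun k : ℕ => a ^ k / (Nat.fib (d ^ k) : ℂ)) ∧
      ∑' k : ℕ, a ^ k / (Nat.fib (d ^ k) : ℂ) =
        1 + a * (sqrtFive * fibSer d a ((-1) ^ d) (invGold ^ d)) := by
  have hz : ‖invGold ^ d‖ < 1 := by
    rw [norm_pow]
    exact pow_lt_one₀ (norm_nonneg _) norm_invGold_lt (by omega)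
  obtain ⟨h1, h2⟩ := fibSer_eq_tsum hd a (s := (-1) ^ d) (by simp) hz
  have hterm : ∀ k : ℕ, a ^ (k + 1) / (Nat.fib (d ^ (k + 1)) : ℂ) = a * (sqrtFive *
      (a ^ k * (invGold ^ d) ^ d ^ k / (1 - (-1) ^ d * (invGold ^ d) ^ (2 * d ^ k)))) := fun k => by
    have hsign : ((-1 : ℂ)) ^ d ^ (k + 1) = (-1) ^ d := by
      rcases Nat.even_or_odd d with hev | hodd
      · rw [hev.neg_one_pow, (Nat.even_pow.2 ⟨hev, Nat.succ_ne_zero k⟩).neg_one_pow]
      · rw [hodd.neg_one_pow, (hodd.pow).neg_one_pow]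
    rw [div_eq_mul_inv, inv_eq_one_div, one_div_fib (pow_pos (by omega) _), hsign, ← pow_mul,
      ← pow_mul, ← pow_succ', show d * (2 * d ^ k) = 2 * d ^ (k + 1) by ring]
    ring
  have hsum : Summable fun k : ℕ => a ^ k / (Nat.fib (d ^ k) : ℂ) := by
    refine (summable_nat_add_iff 1).1 ?_
    simp only [hterm]
    exact (h1.mul_left _).mul_left _
  refine ⟨hsum, ?_⟩
  rw [hsum.tsum_eq_zero_add]
  simp only [hterm, tsum_mul_left, ← h2]
  simp

/-- **Millin's series.** -/
theorem tsum_one_div_fib_two_pow :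
    ∑' k : ℕ, (1 : ℝ) / Nat.fib (2 ^ k) = (7 - √5) / 2 := by
  have hz : ‖invGold ^ 2‖ < 1 := by
    rw [norm_pow]
    exact pow_lt_one₀ (norm_nonneg _) norm_invGold_lt two_ne_zero
  set β := invGold ^ 2
  have hne : ∀ k, 1 - β ^ 2 ^ k ≠ 0 := fun k h => by
    have h1 : ‖β ^ 2 ^ k‖ < 1 := by
      rw [norm_pow]
      exact pow_lt_one₀ (norm_nonneg _) hz (pow_ne_zero _ two_ne_zero)
    rw [← sub_eq_zero.1 h, norm_one] at h1
    exact lt_irrefl _ h1
  obtain ⟨h1, h2⟩ := fibSer_eq_tsum (d := 2) le_rfl 1 (s := (-1) ^ 2) (by simp) hz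
  have hval : fibSer 2 1 ((-1) ^ 2) β = β / (1 - β) := by
    rw [h2]
    refine (h1.hasSum_iff_tendsto_nat.2 ?_).tsum_eq
    have hp : ∀ N, ∑ k ∈ range N,
        1 ^ k * β ^ 2 ^ k / (1 - (-1 : ℂ) ^ 2 * β ^ (2 * 2 ^ k)) =
        1 / (1 - β) - 1 / (1 - β ^ 2 ^ N) := fun N => by
      induction N with
      | zero => simp
      | succ N ih =>
        rw [sum_range_succ, ih]
        have e := hne (N + 1)
        have eN := hne N
        rw [pow_succ', mul_comm 2, pow_mul] at e ⊢
        simp only [one_pow, one_mul]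
        have key : β ^ 2 ^ N / (1 - (β ^ 2 ^ N) ^ 2) =
            1 / (1 - β ^ 2 ^ N) - 1 / (1 - (β ^ 2 ^ N) ^ 2) := by
          rw [div_sub_div _ _ eN e, div_eq_div_iff e (mul_ne_zero eN e)]
          ring
        linear_combination key
    simp only [hp]
    have hlim : Filter.Tendsto (fun N : ℕ => β ^ 2 ^ N) Filter.atTop (nhds 0) :=
      (tendsto_pow_atTop_nhds_zero_of_norm_lt_one hz).comp
        (tendsto_pow_atTop_atTop_of_one_lt one_lt_two)
    have h0 : 1 - β ≠ 0 := by simpa using hne 0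
    have := (tendsto_const_nhds (x := 1 / (1 - β))).sub
      ((tendsto_const_nhds (x := (1 : ℂ))).div ((tendsto_const_nhds (x := (1 : ℂ))).sub hlim)
        (by simp))
    have e0 : β / (1 - β) = 1 / (1 - β) - 1 / (1 - 0) := by field_simp; ring
    rw [e0]
    exact this
  refine Complex.ofReal_injective ?_
  rw [Complex.ofReal_tsum]
  have h := (fib_sum_eq (d := 2) le_rfl 1).2
  simp only [one_pow] at h
  push_cast
  rw [h, one_mul, show invGold ^ 2 = β from rfl, hval]
  have h5 : sqrtFive ^ 2 = 5 := by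
    rw [sqrtFive, ← Complex.ofReal_pow, Real.sq_sqrt (by norm_num)]; norm_num
  have hg : invGold = (sqrtFive - 1) / 2 := by
    rw [invGold, Real.inv_goldenRatio, Real.goldenConj, sqrtFive]; push_cast; ring
  have hb : β / (1 - β) = invGold := by
    have h1 : 1 - β = invGold := by
      rw [show β = invGold ^ 2 from rfl, hg]
      linear_combination -h5 / 4
    rw [h1, show β = invGold ^ 2 from rfl]
    field_simp [invGold_ne_zero]
  rw [hb, show ((√5 : ℝ) : ℂ) = sqrtFive from rfl, hg]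
  linear_combination h5 / 2

/-- **Reciprocal sums of Fibonacci numbers at geometric indices.** -/
theorem algebraicIndependent_fib (hd : 2 ≤ d) :
    AlgebraicIndependent ℚ fun a : {a : ℂ // IsAlgebraic ℚ a ∧ a ≠ 0 ∧ (d = 2 → a ≠ 1)} =>
      ∑' k : ℕ, (a : ℂ) ^ k / (Nat.fib (d ^ k) : ℂ) := by
  classical
  rw [algebraicIndependent_iff]
  intro P hP
  obtain ⟨n, e, he, R, rfl⟩ := MvPolynomial.exists_fin_rename P
  rw [MvPolynomial.aeval_rename] at hP
  have hS : ∀ z ∈ insert sqrtFive (insert invGold (Set.range fun i => (e i).1)),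
      IsAlgebraic ℚ z := by
    have h5 : IsAlgebraic ℚ sqrtFive := by
      refine IsAlgebraic.of_pow two_pos ?_
      rw [sqrtFive, ← Complex.ofReal_pow, Real.sq_sqrt (by norm_num)]
      simpa using isAlgebraic_algebraMap (A := ℂ) (5 : ℚ)
    intro z hz
    rcases hz with rfl | rfl | ⟨i, rfl⟩
    · exact h5
    · have : invGold = (sqrtFive - algebraMap ℚ ℂ 1) * algebraMap ℚ ℂ (1 / 2) := by
        rw [invGold, Real.inv_goldenRatio, Real.goldenConj, sqrtFive]
        push_cast
        simp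
        ring
      rw [this]
      exact ((h5.sub (isAlgebraic_algebraMap _)).mul (isAlgebraic_algebraMap _))
    · exact (e i).2.1
  set F := IntermediateField.adjoin ℚ (insert sqrtFive (insert invGold
    (Set.range fun i => (e i).1)))
  haveI : Finite (insert sqrtFive (insert invGold (Set.range fun i => (e i).1)) : Set ℂ) :=
    ((Set.finite_range _).insert _ |>.insert _).to_subtype
  haveI : FiniteDimensional ℚ F :=
    IntermediateField.finiteDimensional_adjoin fun z hz => (hS z hz).isIntegral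
  haveI : NumberField F := { }
  let ψ : F →+* ℂ := F.val.toRingHom
  have hψs : ψ ((-1) ^ d) = (-1) ^ d := by simp
  let a : Fin n → F := fun i => ⟨(e i).1,
    IntermediateField.subset_adjoin ℚ _ (Or.inr (Or.inr ⟨i, rfl⟩))⟩
  let r5 : F := ⟨sqrtFive, IntermediateField.subset_adjoin ℚ _ (Or.inl rfl)⟩
  let α : F := ⟨invGold, IntermediateField.subset_adjoin ℚ _ (Or.inr (Or.inl rfl))⟩ ^ d
  have ha : ∀ i, a i ≠ 0 := fun i h => (e i).2.2.1 (congrArg Subtype.val h)
  have hr5 : r5 ≠ 0 := fun h => by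
    have := congrArg Subtype.val h
    simp [r5, sqrtFive] at this
  have hψα : ψ α = invGold ^ d := by simp [ψ, α]
  let c : Fin n → ℕ → F := fun i m =>
    ∑ p ∈ {p ∈ range (m + 1) ×ˢ range (m + 1) | (2 * p.2 + 1) * d ^ p.1 = m},
      a i ^ p.1 * ((-1) ^ d) ^ p.2
  have hrep : ∀ i, Rep ψ (PowerSeries.mk (c i)) (fibSer d (e i).1 ((-1) ^ d)) := fun i => by
    have h := rep_of_family (ψ := ψ) (fun p : ℕ × ℕ => (2 * p.2 + 1) * d ^ p.1)
      (fun m => {p ∈ range (m + 1) ×ˢ range (m + 1) | (2 * p.2 + 1) * d ^ p.1 = m})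
      (fun m p => ?_) (fun p => a i ^ p.1 * ((-1) ^ d) ^ p.2) fun z hz => ?_
    · convert h using 1
      funext z
      simp [fibSer, ψ, a]
    · simp only [mem_filter, mem_product, mem_range, and_iff_right_iff_imp]
      intro h
      have h1 : p.1 < d ^ p.1 := Nat.lt_pow_self (by omega)
      constructor <;> nlinarith
    · simpa [ψ, a] using summable_fibSer hd (e i).1 (s := (-1) ^ d) (by simp) hz
  let T : MvPolynomial (Fin n) F →+* MvPolynomial (Fin n) F := MvPolynomial.eval₂Hom
    MvPolynomial.C fun i => 1 + MvPolynomial.C (a i * r5) * MvPolynomial.X i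
  let T' : MvPolynomial (Fin n) F →+* MvPolynomial (Fin n) F := MvPolynomial.eval₂Hom
    MvPolynomial.C fun i => MvPolynomial.C (a i * r5)⁻¹ * (MvPolynomial.X i - 1)
  have hTT : T'.comp T = RingHom.id _ := MvPolynomial.ringHom_ext (fun x => by simp [T, T'])
    fun i => by
      simp only [T, T', RingHom.comp_apply, MvPolynomial.eval₂Hom_X', map_add, map_one, map_mul,
        MvPolynomial.eval₂Hom_C, RingHom.id_apply]
      rw [← map_mul, ← mul_assoc, ← map_mul, mul_inv_cancel₀ (mul_ne_zero (ha i) hr5), map_one,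
        one_mul, add_sub_cancel]
  set R' := T (MvPolynomial.map (algebraMap ℚ F) R) with hR'
  have hR0 : R' = 0 := by
    by_contra hne
    refine false_of_value_relation ψ c hrep hd (fun i => Units.mk0 (a i)⁻¹ (inv_ne_zero (ha i)))
      (fun i => -Polynomial.C (a i)⁻¹ * Polynomial.X)
      (fun _ => 1 - Polynomial.C ((-1) ^ d) * Polynomial.X ^ 2) (fun i z hz => ?_)
      (fun t g q hg hq => ?_) α (pow_ne_zero _ fun h => invGold_ne_zero (congrArg Subtype.val h))
      ?_ (fun _ k => ?_) hne ?_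
    · have h1 := fibSer_eq hd (s := (-1) ^ d) (e i).2.2.1 (by simp) hz
      simp [ψ, a]
      linear_combination h1
    · funext i
      by_contra hgi
      have hone : ∀ l, g l ≠ 0 → l = i := fun l hl => he (Subtype.ext (inv_injective (by
        simpa [ψ, a] using (hg l hl).trans (hg i hgi).symm)))
      have hval : t = ((e i).1)⁻¹ := by simpa [ψ, a] using (hg i hgi).symm
      refine mul_ne_zero hgi (neg_ne_zero.2 (inv_ne_zero (e i).2.2.1))
        (fib_criterion hd rfl (fun h2 h1 => (e i).2.2.2 h2 (inv_eq_one.1 (hval.symm.trans h1))) q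
          ?_)
      rw [hq, sum_eq_single i (fun l _ hl => by
        rw [not_not.1 fun h0 => hl (hone l h0), map_zero, zero_mul])
        (fun h => absurd (mem_univ i) h), ← RatFunc.algebraMap_C, ← mul_div_assoc, ← map_mul]
      simp [ψ, a, mul_assoc]
    · rw [hψα, norm_pow]
      exact pow_lt_one₀ (norm_nonneg _) norm_invGold_lt (by omega)
    · intro h
      have h1 := congrArg ψ h
      rw [map_zero, ← Polynomial.eval₂_hom, ← Polynomial.eval_map] at h1
      simp [hψα] at h1
      have h2 : ‖(-1 : ℂ) ^ d * ((invGold ^ d) ^ d ^ k) ^ 2‖ < 1 := by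
        simp only [norm_mul, norm_pow, norm_neg, norm_one, one_pow, one_mul, ← pow_mul]
        exact pow_lt_one₀ (norm_nonneg _) norm_invGold_lt (by positivity)
      rw [← sub_eq_zero.1 h1, norm_one] at h2
      exact lt_irrefl _ h2
    · refine Eq.trans ?_ hP
      rw [hR', ← MvPolynomial.coe_eval₂Hom, ← RingHom.comp_apply, MvPolynomial.aeval_def,
        ← MvPolynomial.coe_eval₂Hom, ← RingHom.comp_apply]
      refine congrArg (fun F : MvPolynomial (Fin n) ℚ →+* ℂ => F R) ?_
      refine MvPolynomial.ringHom_ext (fun x => by simp [T]) fun i => ?_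
      simp [T, hψα, (fib_sum_eq hd (e i).1).2]
      simp [ψ, a, r5, mul_assoc]
  have h := congrArg T' hR0
  rw [hR', ← RingHom.comp_apply, hTT, RingHom.id_apply, map_zero] at h
  rw [MvPolynomial.map_injective _ (algebraMap ℚ F).injective (h.trans (map_zero _).symm),
    map_zero]

end FA.MahlerTwist

end
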