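import Mathlib.Analysis.Analytic.Order
import Mathlib.Analysis.Complex.Basic
import Mathlib.Analysis.Asymptotics.SpecificAsymptotics
import Mathlib.Analysis.SpecificLimits.Normed

/-!
# Exponentials against `β ^ (d ^ k)`

If `∑ t_i ^ k Φ_i (β ^ (d ^ k)) = 0` for large `k`, with distinct `t_i` and `Φ_i` analytic at `0`,
then every `Φ_i` vanishes near `0`.
-/

set_option autoImplicit false

noncomputable section

namespace FA.MahlerTwist

open Finset
open Filter Topology

section Separation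

variable {σ : Type*}

/-- An exponential sum is not smaller than every exponential. -/
theorem eq_zero_of_small (S : Finset σ) (t : σ → ℂ) (ht : Set.InjOn t S)
    (ht0 : ∀ i ∈ S, t i ≠ 0) (c : σ → ℂ)
    (h : ∀ ρ : ℝ, 0 < ρ →
      Tendsto (fun k : ℕ => ρ ^ k * ‖∑ i ∈ S, c i * t i ^ k‖) atTop (𝓝 0)) :
    ∀ i ∈ S, c i = 0 := by
  classical
  induction S using Finset.induction generalizing c with
  | empty => simp
  | insert μ S hμ ih =>
    set ε : ℕ → ℂ := fun k => ∑ i ∈ insert μ S, c i * t i ^ k with hε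
    have hrest : ∀ i ∈ S, c i = 0 := fun i hi => by
      have h1 := ih (ht.mono (coe_subset.2 (subset_insert _ _)))
        (fun j hj => ht0 j (mem_insert_of_mem hj)) (fun j => c j * (t j - t μ))
        (fun ρ hρ => ?_) i hi
      · refine (mul_eq_zero.1 h1).resolve_right (sub_ne_zero.2 fun e => hμ ?_)
        rw [← ht (mem_insert_of_mem hi) (mem_insert_self _ _) e]
        exact hi
      have hδ : ∀ k, ∑ j ∈ S, c j * (t j - t μ) * t j ^ k = ε (k + 1) - t μ * ε k := fun k => by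
        simp only [hε, sum_insert hμ, mul_add, mul_sum, pow_succ]
        rw [show c μ * (t μ ^ k * t μ) + ∑ i ∈ S, c i * (t i ^ k * t i) -
          (t μ * (c μ * t μ ^ k) + ∑ i ∈ S, t μ * (c i * t i ^ k)) =
          ∑ i ∈ S, c i * (t i ^ k * t i) - ∑ i ∈ S, t μ * (c i * t i ^ k) by ring,
          ← sum_sub_distrib]
        exact sum_congr rfl fun j _ => by ring
      have hlim : Tendsto (fun k : ℕ => ρ⁻¹ * (ρ ^ (k + 1) * ‖ε (k + 1)‖) +
          ‖t μ‖ * (ρ ^ k * ‖ε k‖)) atTop (𝓝 0) := by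
        simpa using ((((tendsto_add_atTop_iff_nat 1).2 (h ρ hρ)).const_mul ρ⁻¹).add
          ((h ρ hρ).const_mul ‖t μ‖))
      refine squeeze_zero (fun k => by positivity) (fun k => ?_) hlim
      rw [hδ]
      refine (mul_le_mul_of_nonneg_left (norm_sub_le _ _) (by positivity)).trans_eq ?_
      rw [norm_mul, pow_succ]
      field_simp
    intro i hi
    rcases mem_insert.1 hi with rfl | hi
    · have h1 := h ‖t i‖⁻¹ (inv_pos.2 (norm_pos_iff.2 (ht0 i (mem_insert_self _ _))))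
      have h2 : (fun k : ℕ => ‖t i‖⁻¹ ^ k * ‖∑ j ∈ insert i S, c j * t j ^ k‖) =
          fun _ => ‖c i‖ := funext fun k => by
        rw [sum_insert hμ, sum_eq_zero fun j hj => by rw [hrest j hj, zero_mul], add_zero,
          norm_mul, norm_pow, inv_pow]
        field_simp [pow_ne_zero k (norm_ne_zero_iff.2 (ht0 i (mem_insert_self _ _)))]
      rw [h2] at h1
      exact norm_eq_zero.1 (tendsto_nhds_unique tendsto_const_nhds h1)
    · exact hrest i hi

/-- `r ^ (d ^ k)` is smaller than every exponential. -/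
theorem tendsto_pow_mul_pow_pow {d : ℕ} (hd : 2 ≤ d) {r : ℝ} (hr0 : 0 ≤ r) (hr1 : r < 1) {ρ : ℝ}
    (hρ : 0 ≤ ρ) : Tendsto (fun k : ℕ => ρ ^ k * r ^ d ^ k) atTop (𝓝 0) := by
  obtain ⟨s, hs⟩ := exists_pow_lt_of_lt_one (show 0 < 1 / (2 * (ρ + 1)) by positivity) hr1
  have hev : ∀ᶠ k : ℕ in atTop, s * k ≤ d ^ k := by
    have ho := (isLittleO_coe_const_pow_of_one_lt (R := ℝ)
      (show (1 : ℝ) < d by exact_mod_cast hd)).bound (show (0 : ℝ) < 1 / (s + 1) by positivity)
    filter_upwards [ho] with k hk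
    simp only [Real.norm_natCast, norm_pow, one_div] at hk
    rw [inv_mul_eq_div, le_div_iff₀ (by positivity)] at hk
    have : ((s * k : ℕ) : ℝ) ≤ ((d ^ k : ℕ) : ℝ) := by push_cast; nlinarith
    exact_mod_cast this
  refine squeeze_zero' (Eventually.of_forall fun k => by positivity) ?_
    (tendsto_pow_atTop_nhds_zero_of_lt_one (by norm_num : (0 : ℝ) ≤ 1 / 2) (by norm_num))
  filter_upwards [hev] with k hk
  calc ρ ^ k * r ^ d ^ k ≤ ρ ^ k * (r ^ s) ^ k := by
        rw [← pow_mul]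
        exact mul_le_mul_of_nonneg_left (pow_le_pow_of_le_one hr0 hr1.le hk) (by positivity)
    _ = (ρ * r ^ s) ^ k := by rw [mul_pow]
    _ ≤ (1 / 2) ^ k := by
        refine pow_le_pow_left₀ (by positivity) ?_ _
        calc ρ * r ^ s ≤ (ρ + 1) * (1 / (2 * (ρ + 1))) :=
              mul_le_mul (by linarith) hs.le (by positivity) (by positivity)
          _ = 1 / 2 := by field_simp

/-- **Separation of exponentials from `β ^ (d ^ k)`.** -/
theorem eventually_zero_of_sum {d : ℕ} (hd : 2 ≤ d) {β : ℂ} (hβ0 : β ≠ 0) (hβ : ‖β‖ < 1)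
    (S : Finset σ) (t : σ → ℂ) (ht : Set.InjOn t S) (ht0 : ∀ i ∈ S, t i ≠ 0) (Φ : σ → ℂ → ℂ)
    (hΦ : ∀ i, AnalyticAt ℂ (Φ i) 0)
    (h : ∀ᶠ k : ℕ in atTop, ∑ i ∈ S, t i ^ k * Φ i (β ^ d ^ k) = 0) :
    ∀ i ∈ S, ∀ᶠ z in 𝓝 0, Φ i z = 0 := by
  suffices hm : ∀ m : ℕ, ∀ i ∈ S, (m : ℕ∞) ≤ analyticOrderAt (Φ i) 0 by
    intro i hi
    rw [← analyticOrderAt_eq_top]
    exact ENat.eq_top_iff_forall_ge.2 fun m => hm m i hi
  have hlim : Tendsto (fun k : ℕ => β ^ d ^ k) atTop (𝓝 0) :=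
    (tendsto_pow_atTop_nhds_zero_of_norm_lt_one hβ).comp
      (tendsto_pow_atTop_atTop_of_one_lt (by omega : 1 < d))
  intro m
  induction m with
  | zero => simp
  | succ m ih =>
    have hfac : ∀ i, ∃ ψ₀ : ℂ → ℂ, i ∈ S →
        AnalyticAt ℂ ψ₀ 0 ∧ ∀ᶠ z in 𝓝 0, Φ i z = (z - 0) ^ m • ψ₀ z := fun i => by
      by_cases hi : i ∈ S
      · obtain ⟨ψ₀, h1, h2⟩ := (natCast_le_analyticOrderAt (hΦ i)).1 (ih i hi)
        exact ⟨ψ₀, fun _ => ⟨h1, h2⟩⟩
      · exact ⟨0, fun h => absurd h hi⟩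
    choose Ψ hΨ using hfac
    have hsum : ∀ᶠ k : ℕ in atTop, ∑ i ∈ S, t i ^ k * Ψ i (β ^ d ^ k) = 0 := by
      filter_upwards [h, (eventually_all_finset S).2
        fun i hi => hlim.eventually (hΨ i hi).2] with k hk hk'
      rw [sum_congr rfl fun i hi => by rw [hk' i hi]] at hk
      simp only [sub_zero, smul_eq_mul, mul_left_comm (t _ ^ k), ← mul_sum] at hk
      exact (mul_eq_zero.1 hk).resolve_left (pow_ne_zero _ (pow_ne_zero _ hβ0))
    have hzero : ∀ i ∈ S, Ψ i 0 = 0 := by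
      refine eq_zero_of_small S t ht ht0 _ fun ρ hρ => ?_
      have hlip : ∀ i ∈ S, ∃ C, ∀ᶠ z in 𝓝 (0 : ℂ), ‖Ψ i z - Ψ i 0‖ ≤ C * ‖z‖ := fun i hi => by
        obtain ⟨C, hC⟩ := (hΨ i hi).1.differentiableAt.isBigO_sub.bound
        exact ⟨C, by simpa using hC⟩
      choose! C hC using hlip
      have hlim' : Tendsto (fun k : ℕ =>
          ∑ i ∈ S, |C i| * ((ρ * ‖t i‖) ^ k * ‖β‖ ^ d ^ k)) atTop (𝓝 0) := by
        rw [← sum_const_zero (s := S) (M := ℝ)]
        exact tendsto_finsetSum S fun i _ => by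
          simpa using (tendsto_pow_mul_pow_pow hd (norm_nonneg β) hβ
            (mul_nonneg hρ.le (norm_nonneg (t i)))).const_mul |C i|
      refine squeeze_zero' (Eventually.of_forall fun k => by positivity) ?_ hlim'
      filter_upwards [hsum, (eventually_all_finset S).2
        fun i hi => hlim.eventually (hC i hi)] with k hk hk'
      rw [show ∑ i ∈ S, Ψ i 0 * t i ^ k = -∑ i ∈ S, t i ^ k * (Ψ i (β ^ d ^ k) - Ψ i 0) by
        simp only [mul_sub, sum_sub_distrib, hk, zero_sub, neg_neg, mul_comm], norm_neg]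
      refine (mul_le_mul_of_nonneg_left (norm_sum_le _ _) (by positivity)).trans ?_
      rw [mul_sum]
      refine sum_le_sum fun i hi => ?_
      rw [norm_mul, norm_pow, mul_pow, ← norm_pow β]
      calc ρ ^ k * (‖t i‖ ^ k * ‖Ψ i (β ^ d ^ k) - Ψ i 0‖)
          ≤ ρ ^ k * (‖t i‖ ^ k * (|C i| * ‖β ^ d ^ k‖)) := by
            refine mul_le_mul_of_nonneg_left (mul_le_mul_of_nonneg_left ((hk' i hi).trans ?_)
              (by positivity)) (by positivity)
            exact mul_le_mul_of_nonneg_right (le_abs_self _) (norm_nonneg _)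
        _ = _ := by ring
    intro i hi
    obtain ⟨ψ₁, h1, h2⟩ := (natCast_le_analyticOrderAt (hΨ i hi).1).1
      (show ((1 : ℕ) : ℕ∞) ≤ analyticOrderAt (Ψ i) 0 by
        rw [Nat.cast_one, Order.one_le_iff_ne_zero, (hΨ i hi).1.analyticOrderAt_ne_zero]
        exact hzero i hi)
    refine (natCast_le_analyticOrderAt (hΦ i)).2 ⟨ψ₁, h1, ?_⟩
    filter_upwards [(hΨ i hi).2, h2] with z hz hz'
    rw [hz, hz', pow_one, smul_smul, ← pow_succ]

end Separation

end FA.MahlerTwist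

end
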