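import Fermat.Agent.MahlerTwist.Parameters
import Fermat.Agent.MahlerTwist.Separation
import Mathlib.Analysis.Complex.CauchyIntegral
import Mathlib.Analysis.Calculus.Deriv.Polynomial

/-!
# The auxiliary values are not all zero

A polynomial in `z`, the parameters and the multipliers which vanishes at
`(α ^ (d ^ k), f (α) - a ^ -k f (α ^ (d ^ k)), a ^ -k)` for all large `k` is zero, if the functions
are independent.
-/

set_option autoImplicit false

noncomputable section

namespace FA.MahlerTwist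

open Finset
open Filter Topology

variable {K : Type*} [Field K] {n : ℕ} {ψ : K →+* ℂ} {f : Fin n → ℂ → ℂ} {d : ℕ} {α : K}

theorem frequently_sum_ne_zero (hd : 2 ≤ d)
    (hdiff : ∀ i, DifferentiableOn ℂ (f i) (Metric.ball 0 1))
    (hno : ∀ P : MvPolynomial (Fin n) (Polynomial ℂ), (∀ᶠ z in 𝓝[≠] (0 : ℂ),
      MvPolynomial.eval₂ (Polynomial.evalRingHom z) (fun i => f i z) P = 0) → P = 0)
    (hα0 : α ≠ 0) (hα1 : ‖ψ α‖ < 1) (a : Fin n → Kˣ) (cst : ℕ → Fin n → K)
    (hval : ∀ k i, ψ (cst k i) =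
      f i (ψ α) - ψ ((a i)⁻¹ : Kˣ).val ^ k * f i (ψ α ^ d ^ k))
    {N : ℕ} (x : Fin (N + 1) → Params K n) {j₀ : Fin (N + 1)} (hj₀ : x j₀ ≠ 0) :
    ∃ᶠ k in atTop,
      ∑ j : Fin (N + 1), (α ^ d ^ k) ^ j.val * evalParams k (cst k) (x j) ≠ 0 := by
  classical
  let χ : ℕ → Kˣ →* K := fun k => (powMonoidHom k).comp (Units.coeHom K)
  intro hev0
  simp only [not_not] at hev0
  let one' : MvPolynomial (Fin n) (Polynomial ℂ) →+*
      MonoidAlgebra (MvPolynomial (Fin n) (Polynomial ℂ)) Kˣ := MonoidAlgebra.singleOneRingHom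
  let θ : Params K n →+* MonoidAlgebra (MvPolynomial (Fin n) (Polynomial ℂ)) Kˣ :=
    MvPolynomial.eval₂Hom
      (MonoidAlgebra.mapRingHom Kˣ (MvPolynomial.C.comp (Polynomial.C.comp ψ))) fun i =>
        one' (MvPolynomial.C (Polynomial.C (f i (ψ α)))) -
          MonoidAlgebra.single (a i)⁻¹ (MvPolynomial.X i)
  let Z := ∑ j : Fin (N + 1), one' (MvPolynomial.C (Polynomial.X ^ j.val)) * θ (x j)
  let val : ℂ → MvPolynomial (Fin n) (Polynomial ℂ) →+* ℂ :=
    fun z => MvPolynomial.eval₂Hom (Polynomial.evalRingHom z) fun i => f i z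
  let χ' : ℕ → Kˣ →* ℂ := fun k => (ψ : K →* ℂ).comp (χ k)
  let Ψ : ℕ → MonoidAlgebra (MvPolynomial (Fin n) (Polynomial ℂ)) Kˣ →+* ℂ := fun k =>
    MonoidAlgebra.liftNCRingHom (val (ψ α ^ d ^ k)) (χ' k) fun _ _ => Commute.all _ _
  have hΨθ : ∀ k, (Ψ k).comp θ = ψ.comp (evalParams k (cst k)) := fun k => by
    refine MvPolynomial.ringHom_ext (fun p => ?_) fun i => ?_
    · refine congrArg (fun F : MonoidAlgebra K Kˣ →+* ℂ => F p)
        (show ((Ψ k).comp θ).comp MvPolynomial.C =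
          (ψ.comp (evalParams k (cst k))).comp MvPolynomial.C from ?_)
      refine MonoidAlgebra.ringHom_ext (fun r => ?_) fun m => ?_
      · simp [Ψ, θ, evalParams, val, χ', χ, MonoidAlgebra.lift_single]
      · simp [Ψ, θ, evalParams, val, χ', χ, MonoidAlgebra.lift_single]
    · simp [Ψ, θ, evalParams, val, χ', χ, one', hval, mul_comm]
  have hΨZ : ∀ k, Ψ k Z =
      ψ (∑ j : Fin (N + 1), (α ^ d ^ k) ^ j.val * evalParams k (cst k) (x j)) := fun k => by
    simp only [Z, map_sum, map_mul, map_pow]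
    refine sum_congr rfl fun j _ => ?_
    rw [← RingHom.comp_apply (Ψ k) θ, hΨθ, RingHom.comp_apply]
    simp [Ψ, one', val, χ']
  have hΨsum : ∀ k, Ψ k Z = ∑ m ∈ Z.coeff.support,
      ψ (m : Kˣ) ^ k * val (ψ α ^ d ^ k) (Z.coeff m) := fun k => by
    conv_lhs => rw [← MonoidAlgebra.sum_coeff_single Z, Finsupp.sum, map_sum]
    refine sum_congr rfl fun m _ => ?_
    simp [Ψ, χ', χ, mul_comm]
  have han : ∀ m, AnalyticAt ℂ (fun z => val z (Z.coeff m)) 0 := fun m => by
    refine DifferentiableOn.analyticAt (s := Metric.ball 0 1) (fun z hz => ?_)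
      (Metric.ball_mem_nhds _ one_pos)
    induction Z.coeff m using MvPolynomial.induction_on with
    | C p => simpa [val] using (p.differentiableAt (𝕜 := ℂ) (x := z)).differentiableWithinAt
    | add p q hp hq =>
      simp only [map_add]
      exact hp.add hq
    | mul_X p i hp =>
      simp only [map_mul, val, MvPolynomial.eval₂Hom_X'] at hp ⊢
      exact hp.mul (hdiff i z hz)
  have hzero := eventually_zero_of_sum hd ((map_ne_zero ψ).mpr hα0) hα1 Z.coeff.support
    (fun m : Kˣ => ψ m) (fun m _ m' _ hmm => Units.ext (ψ.injective hmm))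
    (fun m _ => (map_ne_zero ψ).mpr m.ne_zero) (fun m z => val z (Z.coeff m)) han (by
      filter_upwards [hev0] with k hk
      rw [← hΨsum, hΨZ, hk, map_zero])
  have hZ : Z = 0 := by
    refine MonoidAlgebra.ext (Finsupp.ext fun m => ?_)
    by_contra hm
    refine hm ?_
    exact hno _ (nhdsWithin_le_nhds (hzero m (Finsupp.mem_support_iff.2 (by simpa using hm))))
  -- undo the substitution
  let ι₂ : MonoidAlgebra ℂ Kˣ →+* Polynomial (MvPolynomial (Fin n) (MonoidAlgebra ℂ Kˣ)) :=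
    Polynomial.C.comp MvPolynomial.C
  let back : MvPolynomial (Fin n) (Polynomial ℂ) →+*
      Polynomial (MvPolynomial (Fin n) (MonoidAlgebra ℂ Kˣ)) := MvPolynomial.eval₂Hom
    (Polynomial.eval₂RingHom (ι₂.comp MonoidAlgebra.singleOneRingHom) Polynomial.X) fun i =>
      ι₂ (MonoidAlgebra.single (a i) 1) *
        (ι₂ (MonoidAlgebra.single 1 (f i (ψ α))) - Polynomial.C (MvPolynomial.X i))
  let Θ : MonoidAlgebra (MvPolynomial (Fin n) (Polynomial ℂ)) Kˣ →+*
      Polynomial (MvPolynomial (Fin n) (MonoidAlgebra ℂ Kˣ)) :=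
    MonoidAlgebra.liftNCRingHom back
      ((ι₂ : MonoidAlgebra ℂ Kˣ →* _).comp (MonoidAlgebra.of ℂ Kˣ)) fun _ _ => Commute.all _ _
  have hΘθ : Θ.comp θ =
      Polynomial.C.comp (MvPolynomial.map (MonoidAlgebra.mapRingHom Kˣ ψ)) := by
    refine MvPolynomial.ringHom_ext (fun p => ?_) fun i => ?_
    · refine congrArg (fun F : MonoidAlgebra K Kˣ →+*
          Polynomial (MvPolynomial (Fin n) (MonoidAlgebra ℂ Kˣ)) => F p)
        (show (Θ.comp θ).comp MvPolynomial.C = (Polynomial.C.comp (MvPolynomial.map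
          (MonoidAlgebra.mapRingHom Kˣ ψ))).comp MvPolynomial.C from ?_)
      refine MonoidAlgebra.ringHom_ext (fun r => ?_) fun m => ?_
      · simp [Θ, θ, back, ι₂, ← MonoidAlgebra.one_def]
      · simp [Θ, θ, back, ι₂]
    · have h1 : (MonoidAlgebra.single (a i) (1 : ℂ) : MonoidAlgebra ℂ Kˣ) *
          MonoidAlgebra.single (a i)⁻¹ 1 = 1 := by
        rw [MonoidAlgebra.single_mul_single, mul_inv_cancel, mul_one, MonoidAlgebra.one_def]
      have h3 : Θ (one' (MvPolynomial.C (Polynomial.C (f i (ψ α))))) =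
          ι₂ (MonoidAlgebra.single 1 (f i (ψ α))) := by
        simp [Θ, back, one', ι₂, ← MonoidAlgebra.one_def]
      have h4 : Θ (MonoidAlgebra.single (a i)⁻¹ (MvPolynomial.X i)) =
          ι₂ (MonoidAlgebra.single 1 (f i (ψ α))) - Polynomial.C (MvPolynomial.X i) := by
        simp only [Θ, back, MonoidAlgebra.liftNCRingHom_single, MvPolynomial.eval₂Hom_X',
          MonoidHom.coe_comp, Function.comp_apply, MonoidAlgebra.of_apply, MonoidHom.coe_coe]
        rw [mul_comm, ← mul_assoc, ← map_mul ι₂, mul_comm (MonoidAlgebra.single (a i)⁻¹ _), h1,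
          map_one, one_mul]
      simp only [θ, RingHom.comp_apply, MvPolynomial.eval₂Hom_X', MvPolynomial.map_X]
      rw [map_sub, h3, h4]
      exact sub_sub_self (G := Polynomial (MvPolynomial (Fin n) (MonoidAlgebra ℂ Kˣ))) _ _
  refine hj₀ (MvPolynomial.map_injective (MonoidAlgebra.mapRingHom Kˣ ψ)
    (fun p q hpq => MonoidAlgebra.ext (Finsupp.ext fun m => ψ.injective (by
      simpa using congrArg (fun P : MonoidAlgebra ℂ Kˣ => P.coeff m) hpq))) ?_)
  rw [map_zero]
  have h2 := congrArg (fun P => Polynomial.coeff P j₀.val) (congrArg Θ hZ)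
  simp only [Z, map_zero, map_sum, map_mul, Polynomial.coeff_zero,
    Polynomial.finsetSum_coeff] at h2
  rw [sum_eq_single j₀] at h2
  · rw [← RingHom.comp_apply Θ θ, hΘθ, RingHom.comp_apply] at h2
    simpa [Θ, back, one', ι₂, Polynomial.coeff_X_pow_mul', ← MonoidAlgebra.one_def] using h2
  · intro j _ hne
    rw [← RingHom.comp_apply Θ θ, hΘθ, RingHom.comp_apply]
    simp [Θ, back, one', ι₂, ← MonoidAlgebra.one_def, mul_comm (Polynomial.X ^ j.val)]
    exact fun h => absurd (Fin.ext h.symm) hne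
  · exact fun hj => absurd (mem_univ j₀) hj

end FA.MahlerTwist

end
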