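import Fermat.Agent.MahlerTwist.Auxiliary
import Mathlib.RingTheory.MvPolynomial.MonomialOrder
import Mathlib.Data.Finsupp.MonomialOrder
import Mathlib.Algebra.MonoidAlgebra.MapDomain

/-!
# The parameters

The algebra `K[Kˣ][c]`, the series `R (e f (z) + c)` over it, and its evaluation `e ↦ e ^ k`.
-/

set_option autoImplicit false

noncomputable section

namespace FA.MahlerTwist

open Finset
open FA.Mahler (Rep)

variable {K : Type*} [Field K] {n : ℕ}

/-- A nonzero polynomial over the field is regular over an algebra. -/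
theorem isLeftRegular_map {B : Type*} [CommRing B] [Nontrivial B] [Algebra K B]
    {R : MvPolynomial (Fin n) K} (hR : R ≠ 0) :
    IsLeftRegular (MvPolynomial.map (algebraMap K B) R) := by
  intro x y hxy
  by_contra hne
  refine MonomialOrder.lex.leadingCoeff_ne_zero_iff.2 (sub_ne_zero.2 hne) ?_
  have hu : IsUnit (MonomialOrder.lex.leadingCoeff (MvPolynomial.map (algebraMap K B) R)) := by
    have h1 : MvPolynomial.map (algebraMap K B) R ≠ 0 := fun h =>
      hR (MvPolynomial.map_injective _ (algebraMap K B).injective (by rw [h, map_zero]))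
    have h2 := MonomialOrder.lex.leadingCoeff_ne_zero_iff.2 h1
    rw [MonomialOrder.leadingCoeff, MvPolynomial.coeff_map] at h2 ⊢
    exact (isUnit_iff_ne_zero.2 fun h0 => h2 (by rw [h0, map_zero])).map _
  refine hu.mul_left_cancel ?_
  rw [mul_zero, ← MonomialOrder.leadingCoeff_mul_of_left_mem_nonZeroDivisors
    hu.mem_nonZeroDivisors, mul_sub, sub_eq_zero.2 hxy, MonomialOrder.leadingCoeff_zero]

section Parameters

variable (K n) in
/-- The algebra of the parameters. -/
abbrev Params : Type _ := MvPolynomial (Fin n) (MonoidAlgebra K Kˣ)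

variable (a : Fin n → Kˣ)

/-- The parameters `c` and the multipliers. -/
def gen : Fin n ⊕ Fin n → Params K n :=
  Sum.elim MvPolynomial.X fun i => MvPolynomial.C (MonoidAlgebra.single (a i)⁻¹ 1)

variable (c : Fin n → ℕ → K) (R : MvPolynomial (Fin n) K)

/-- `R (e f (z) + c)`. -/
def serR : PowerSeries (Params K n) :=
  MvPolynomial.eval₂ (PowerSeries.C.comp (algebraMap K (Params K n))) (fun i =>
    PowerSeries.C (gen a (.inr i)) * PowerSeries.map (algebraMap K _) (PowerSeries.mk (c i)) +
      PowerSeries.C (gen a (.inl i))) R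

variable {a c R}

theorem adm_serR {ψ : K →+* ℂ} {f : Fin n → ℂ → ℂ}
    (hf : ∀ i, Rep ψ (PowerSeries.mk (c i)) (f i)) :
    Adm ψ (gen a) R.totalDegree (serR a c R) := by
  classical
  rw [serR, MvPolynomial.eval₂_eq']
  refine adm_sum _ fun ν hν => ?_
  have hbase : ∀ i : Fin n, Adm ψ (gen a) 1 (PowerSeries.C (gen a (.inr i)) *
      PowerSeries.map (algebraMap K _) (PowerSeries.mk (c i)) + PowerSeries.C (gen a (.inl i))) :=
    fun i => .add (.term (self_mem_boxSpan _) (hf i)) (adm_C (self_mem_boxSpan _))
  have hprod : ∀ s : Finset (Fin n), Adm ψ (gen a) (∑ i ∈ s, ν i) (∏ i ∈ s,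
      (PowerSeries.C (gen a (.inr i)) * PowerSeries.map (algebraMap K _) (PowerSeries.mk (c i)) +
        PowerSeries.C (gen a (.inl i))) ^ ν i) := fun s => by
    induction s using Finset.induction with
    | empty => rw [prod_empty, ← map_one PowerSeries.C]; exact adm_C one_mem_boxSpan
    | insert i s hi ih =>
      rw [prod_insert hi, sum_insert hi]
      exact (((hbase i).pow (ν i)).mono (by rw [mul_one])).mul ih
  refine Adm.mono ((adm_C (T := 0) (algebraMap_mem_boxSpan _)).mul (hprod univ)) ?_
  rw [zero_add, ← Finsupp.degree_eq_sum]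
  exact MvPolynomial.le_totalDegree hν

theorem isLeftRegular_serR (hR : R ≠ 0) :
    IsLeftRegular (PowerSeries.constantCoeff (serR a c R)) := by
  set β : Fin n → MonoidAlgebra K Kˣ :=
    fun i => MonoidAlgebra.single (a i)⁻¹ 1 * algebraMap K _ (c i 0)
  let φ : Params K n →+* Params K n :=
    MvPolynomial.eval₂Hom MvPolynomial.C fun i => MvPolynomial.X i + MvPolynomial.C (β i)
  let φ' : Params K n →+* Params K n :=
    MvPolynomial.eval₂Hom MvPolynomial.C fun i => MvPolynomial.X i - MvPolynomial.C (β i)
  have h1 : φ'.comp φ = RingHom.id _ :=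
    MvPolynomial.ringHom_ext (fun x => by simp [φ, φ']) fun i => by simp [φ, φ']
  have h2 : PowerSeries.constantCoeff (serR a c R) =
      φ (MvPolynomial.map (algebraMap K _) R) := by
    rw [serR, ← MvPolynomial.coe_eval₂Hom, ← RingHom.comp_apply, ← RingHom.comp_apply φ]
    refine congrArg (fun F : MvPolynomial (Fin n) K →+* Params K n => F R) ?_
    refine MvPolynomial.ringHom_ext (fun x => ?_) fun i => ?_
    · simp [φ]
      rfl
    · have h0 : PowerSeries.constantCoeff (PowerSeries.map (algebraMap K (Params K n))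
          (PowerSeries.mk (c i))) = algebraMap K (Params K n) (c i 0) := by
        rw [← PowerSeries.coeff_zero_eq_constantCoeff_apply, PowerSeries.coeff_map,
          PowerSeries.coeff_mk]
      simp only [φ, β, gen, RingHom.comp_apply, MvPolynomial.eval₂Hom_X', MvPolynomial.map_X,
        map_add, map_mul, PowerSeries.constantCoeff_C, h0, Sum.elim_inl, Sum.elim_inr]
      rw [IsScalarTower.algebraMap_apply K (MonoidAlgebra K Kˣ) (Params K n), add_comm]
      rfl
  intro x y hxy
  rw [h2] at hxy
  have h3 := congrArg φ' hxy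
  simp only [map_mul, ← RingHom.comp_apply φ' φ, h1, RingHom.id_apply] at h3
  have h4 := congrArg φ (isLeftRegular_map hR h3)
  have h5 : φ.comp φ' = RingHom.id _ :=
    MvPolynomial.ringHom_ext (fun x => by simp [φ, φ']) fun i => by simp [φ, φ']
  simpa only [← RingHom.comp_apply, h5, RingHom.id_apply] using h4

/-- `c ↦ γ`, `e ↦ e ^ k`. -/
def evalParams (k : ℕ) (γ : Fin n → K) : Params K n →+* K :=
  MvPolynomial.eval₂Hom
    (MonoidAlgebra.lift K K Kˣ ((powMonoidHom k).comp (Units.coeHom K))).toRingHom γ

theorem evalParams_algebraMap (k : ℕ) (γ : Fin n → K) (x : K) :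
    evalParams k γ (algebraMap K (Params K n) x) = x := by
  simp [evalParams, IsScalarTower.algebraMap_apply K (MonoidAlgebra K Kˣ) (Params K n)]

theorem evalParams_inl (k : ℕ) (γ : Fin n → K) (i : Fin n) :
    evalParams k γ (gen a (.inl i)) = γ i := by simp [evalParams, gen]

theorem evalParams_inr (k : ℕ) (γ : Fin n → K) (i : Fin n) :
    evalParams k γ (gen a (.inr i)) = ((a i)⁻¹ : Kˣ).val ^ k := by
  simp [evalParams, gen, MonoidAlgebra.lift_single]

theorem map_evalParams_serR (ψ : K →+* ℂ) (k : ℕ) (γ : Fin n → K) :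
    PowerSeries.map (ψ.comp (evalParams k γ)) (serR a c R) =
      MvPolynomial.eval₂ (PowerSeries.C.comp ψ) (fun i =>
        PowerSeries.C (ψ ((a i)⁻¹ : Kˣ).val ^ k) * PowerSeries.map ψ (PowerSeries.mk (c i)) +
          PowerSeries.C (ψ (γ i))) R := by
  rw [serR, ← MvPolynomial.coe_eval₂Hom, ← RingHom.comp_apply, ← MvPolynomial.coe_eval₂Hom]
  refine congrArg (fun F : MvPolynomial (Fin n) K →+* PowerSeries ℂ => F R) ?_
  refine MvPolynomial.ringHom_ext (fun y => ?_) fun i => ?_
  · simp only [RingHom.comp_apply, MvPolynomial.eval₂Hom_C, PowerSeries.map_C,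
      evalParams_algebraMap]
  · simp only [RingHom.comp_apply, MvPolynomial.eval₂Hom_X', map_add, map_mul, PowerSeries.map_C,
      evalParams_inl, evalParams_inr, map_pow]
    congr 2
    ext m
    simp only [PowerSeries.coeff_map, RingHom.comp_apply, evalParams_algebraMap]

end Parameters

end FA.MahlerTwist

end
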